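import Fermat.Agent.TWPrimes.Glue.Interface

/-!
# The datum of a residual representation

A basis turns the representation into matrices; the absence of invariant lines gives the two
irreducibility fields of the datum.
-/

set_option autoImplicit false
set_option linter.style.haveILetI false
set_option linter.unusedSectionVars false

noncomputable section

open IsLocalRing
open scoped TensorProduct

namespace FLTAgent.TWPrimes

local notation "LL" => AlgebraicClosure ℚ
local notation "GG" => (AlgebraicClosure ℚ ≃ₐ[ℚ] AlgebraicClosure ℚ)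

namespace Res

variable {k : Type} [Field k] (ρbar : ResidualGaloisRep k) (b : Module.Basis (Fin 2) k ρbar.V)

/-- The matrices of a representation. -/
def matHom : GG →* GL (Fin 2) k :=
  MonoidHom.toHomUnits
    ((LinearMap.toMatrixAlgEquiv b).toAlgHom.toRingHom.toMonoidHom.comp ρbar.ρ)

theorem val_matHom (σ : GG) : (matHom ρbar b σ : Matrix (Fin 2) (Fin 2) k) =
    LinearMap.toMatrix b b (ρbar.ρ σ) := rfl

theorem mulVec_matHom (σ : GG) (v : ρbar.V) :
    Matrix.mulVec (matHom ρbar b σ : Matrix (Fin 2) (Fin 2) k) (b.equivFun v) =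
      b.equivFun (ρbar.ρ σ v) := by
  rw [val_matHom]
  exact LinearMap.toMatrix_mulVec_repr b b (ρbar.ρ σ) v

/-- A common eigenvector spans an invariant line after extending the field, which is neither
zero nor everything. -/
theorem exists_not_eigen (K : Type) [Field K] [Algebra k K] (G : Subgroup GG)
    (hG : ∀ V : Submodule K (ρbar.baseChange K).V,
      (∀ σ ∈ G, ∀ x ∈ V, (ρbar.baseChange K).ρ σ x ∈ V) → V = ⊥ ∨ V = ⊤)
    (v : Fin 2 → k) (hv : v ≠ 0) :
    ∃ σ ∈ G, ∀ a : k, Matrix.mulVec (matHom ρbar b σ : Matrix (Fin 2) (Fin 2) k) v ≠ a • v := by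
  by_contra hcon
  push Not at hcon
  set w : ρbar.V := b.equivFun.symm v with hw
  have hw0 : w ≠ 0 := fun h => hv (by
    have := congrArg b.equivFun h
    rwa [hw, LinearEquiv.apply_symm_apply, map_zero] at this)
  set u : K ⊗[k] ρbar.V := (1 : K) ⊗ₜ[k] w with hu
  have hu0 : u ≠ 0 := by
    obtain ⟨f, hf⟩ := Module.Projective.exists_dual_ne_zero k hw0
    intro h
    have h1 := congrArg ((TensorProduct.rid k K).toLinearMap ∘ₗ LinearMap.lTensor K f) h
    simp only [hu, LinearMap.comp_apply, LinearMap.lTensor_tmul, LinearEquiv.coe_coe,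
      TensorProduct.rid_tmul, map_zero] at h1
    rw [Algebra.smul_def, mul_one] at h1
    exact hf ((map_eq_zero_iff _ (algebraMap k K).injective).1 h1)
  have hstab : ∀ σ ∈ G, ∀ x ∈ (K ∙ u : Submodule K (K ⊗[k] ρbar.V)),
      (ρbar.baseChange K).ρ σ x ∈ (K ∙ u : Submodule K (K ⊗[k] ρbar.V)) := by
    intro σ hσ x hx
    obtain ⟨c, rfl⟩ := Submodule.mem_span_singleton.1 hx
    obtain ⟨a, ha⟩ := hcon σ hσ
    have hσw : ρbar.ρ σ w = a • w := b.equivFun.injective (by
      rw [← mulVec_matHom, map_smul, hw, LinearEquiv.apply_symm_apply, ha])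
    show (ρbar.ρ σ).baseChange K (c • u) ∈ _
    rw [map_smul, hu, LinearMap.baseChange_tmul, hσw, TensorProduct.tmul_smul,
      ← algebraMap_smul K a]
    exact Submodule.smul_mem _ _ (Submodule.smul_mem _ _ (Submodule.mem_span_singleton_self _))
  rcases hG (K ∙ u) hstab with h | h
  · exact hu0 (Submodule.span_singleton_eq_bot.1 h)
  · have h1 : Module.finrank K ↥(K ∙ u : Submodule K (K ⊗[k] ρbar.V)) = 1 :=
      finrank_span_singleton hu0
    have h2 := (ρbar.baseChange K).finrank_eq
    have h' : (K ∙ u : Submodule K (K ⊗[k] ρbar.V)) = ⊤ := h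
    rw [h', finrank_top] at h1
    change Module.finrank K (K ⊗[k] ρbar.V) = 2 at h2
    omega

theorem matHom_eq_one {σ : GG} (h : ρbar.ρ σ = 1) : matHom ρbar b σ = 1 :=
  Units.ext (by
    rw [val_matHom, h, Module.End.one_eq_id, LinearMap.toMatrix_id, Units.val_one])

theorem apply_eq_pow_cycloExp {p : ℕ} [Fact p.Prime] (σ : GG) {μ : LL} (hμ : μ ^ p = 1) :
    σ μ = μ ^ ExtCitation.cycloExp p σ := by
  haveI : NeZero p := ⟨(Fact.out : p.Prime).ne_zero⟩
  obtain ⟨u, rfl⟩ : IsUnit μ := IsUnit.of_pow_eq_one hμ (Fact.out : p.Prime).ne_zero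
  have hu : u ∈ rootsOfUnity p LL := (mem_rootsOfUnity' p u).2 hμ
  exact (modularCyclotomicCharacter.spec LL (ExtCitation.card_rootsOfUnity_eq_self p)
    (σ : LL ≃+* LL) hu).trans rfl

theorem det_eq_cyclo {p : ℕ} [Fact p.Prime] [Algebra (ZMod p) k]
    (h : (GaloisRepAdic.ofResidualGaloisRep ρbar).DetIsCyclotomic p) (σ : GG) :
    LinearMap.det (ρbar.ρ σ) = algebraMap (ZMod p) k (PoitouTate.om p σ) := by
  obtain ⟨hp, hdet⟩ := h
  have hp0 : (p : k) = 0 := by
    by_contra hne
    exact (mem_nonunits_iff.1 ((mem_maximalIdeal _).1 hp)) (Ne.isUnit hne)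
  have h1 := hdet 1 σ (ExtCitation.cycloExp p σ) fun μ hμ =>
    apply_eq_pow_cycloExp σ (by rwa [pow_one] at hμ)
  rw [pow_one, hp0, Ideal.span_singleton_eq_bot.2 rfl, Ideal.mem_bot, sub_eq_zero] at h1
  show LinearMap.det ((GaloisRepAdic.ofResidualGaloisRep ρbar).ρ σ) = _
  rw [h1, PoitouTate.om, ExtCitation.coe_cycloChar, map_natCast]

theorem trace_det_of_split {σ : GG} {α β : k} (h : LinearMap.charpoly (ρbar.ρ σ) =
      (Polynomial.X - Polynomial.C α) * (Polynomial.X - Polynomial.C β)) :
    Matrix.trace (matHom ρbar b σ : Matrix (Fin 2) (Fin 2) k) = α + β ∧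
      Matrix.det (matHom ρbar b σ : Matrix (Fin 2) (Fin 2) k) = α * β := by
  rw [val_matHom]
  rw [← LinearMap.charpoly_toMatrix (ρbar.ρ σ) b, Matrix.charpoly_fin_two] at h
  set t := Matrix.trace (LinearMap.toMatrix b b (ρbar.ρ σ))
  set d := Matrix.det (LinearMap.toMatrix b b (ρbar.ρ σ))
  have h0 := congrArg (fun P => Polynomial.eval 0 P) h
  simp at h0
  have h1 := congrArg (fun P => Polynomial.eval 1 P) h
  simp at h1
  exact ⟨by linear_combination h0 - h1, h0⟩

end Res

open Res in
/-- The residual representation gives a datum. -/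
theorem targetResidual : TargetResidual := by
  intro O _ _ _ _ _ p _ _ hp2 hpO ρbar habs hdet hsplit hirr2 Smin hpS hprime hbad
  let b : Module.Basis (Fin 2) (ResidueField O) ρbar.V :=
    Module.finBasisOfFinrankEq (ResidueField O) ρbar.V ρbar.finrank_eq
  refine ⟨{
    ne_two := hp2
    rb := matHom ρbar b
    level := by
      obtain ⟨L, hL, h⟩ := ρbar.factorsThroughFiniteLevel
      exact ⟨L, hL, fun σ hσ => matHom_eq_one ρbar b (h σ hσ)⟩
    det_cyclo := fun σ => by
      rw [val_matHom, LinearMap.det_toMatrix]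
      exact det_eq_cyclo ρbar hdet σ
    split := fun σ => by
      obtain ⟨α, β, h⟩ := hsplit σ
      exact ⟨α, β, trace_det_of_split ρbar b h⟩
    irred := fun v hv => by
      obtain ⟨σ, -, h⟩ := exists_not_eigen ρbar b (AlgebraicClosure (ResidueField O)) ⊤
        (fun V hV => habs V fun σ x hx => hV σ (Subgroup.mem_top σ) x hx) v hv
      exact ⟨σ, h⟩
    irred_two := fun H hH v hv =>
      exists_not_eigen ρbar b (ResidueField O) H (hirr2 (ResidueField O) H hH) v hv
    bad := Smin.subtype Nat.Prime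
    p_mem := Finset.mem_subtype.2 hpS
    unramified := fun q hq V hV σ hσ => by
      have hq' : (q : ℕ) ∉ Smin := fun h => hq (Finset.mem_subtype.2 h)
      have hqp : (q : ℕ) ≠ p := fun h => hq' (h ▸ hpS)
      have hunr : ρbar.IsUnramifiedAt q := not_not.1 fun h => hq' ((hbad q q.2 hqp).2 h)
      exact matHom_eq_one ρbar b (hunr V hV σ hσ) }, b, fun σ => rfl, fun q => Finset.mem_subtype⟩

end FLTAgent.TWPrimes
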