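import Fermat.Agent.TWPrimes.Glue.Interface
import Fermat.Agent.TWPrimes.Count.Pair
import Fermat.Agent.TWPrimes.Count.Residual
import Fermat.Agent.Deformation.TestAlgebra
import Fermat.Agent.Deformation.SurjectiveToT
import Fermat.Agent.PoitouTate.Inv

/-!
# Derivations of a deformation ring give framed cocycles
-/

set_option autoImplicit false
set_option linter.unusedSectionVars false
set_option linter.style.haveILetI false

noncomputable section

open IsLocalRing

namespace FLTAgent.TWPrimes.Glue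

open FLTAgent.PoitouTate
open FLTAgent.Lowering.P1 (LevC)
open FLTAgent.Deformation (matOf matOf_apply barBasis barMat barLift)

local notation "LL" => AlgebraicClosure ℚ
local notation "GG" => (AlgebraicClosure ℚ ≃ₐ[ℚ] AlgebraicClosure ℚ)
local notation "M2" => Matrix (Fin 2) (Fin 2)
local notation "idG" => MonoidHom.id (AlgebraicClosure ℚ ≃ₐ[ℚ] AlgebraicClosure ℚ)

section Setup

variable {O : Type} [CommRing O] [IsLocalRing O] {p : ℕ} [Fact p.Prime]
  [Algebra (ZMod p) (ResidueField O)] (D : Datum p (ResidueField O))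
  {R : Type} [CommRing R] [IsLocalRing R] [Algebra O R]

/-- The matrices of `ρ` in a basis reduce to the datum. -/
structure Frame (red : R →ₐ[O] ResidueField O) (ρ : GaloisRepAdic R) where
  /-- The basis. -/
  b : Module.Basis (Fin 2) R ρ.V
  red_eq : ∀ σ, (matOf ρ b σ).map red = (D.rb σ : M2 (ResidueField O))
  ker_red : ∀ x, red x = 0 ↔ x ∈ maximalIdeal R

variable {D} {red : R →ₐ[O] ResidueField O} {ρ : GaloisRepAdic R}

/-- A basis in which the matrices reduce to the given ones. -/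
theorem exists_frame (ρbar : ResidualGaloisRep (ResidueField O))
    (b : Module.Basis (Fin 2) (ResidueField O) ρbar.V)
    (hb : ∀ σ, (D.rb σ : M2 (ResidueField O)) = LinearMap.toMatrix b b (ρbar.ρ σ))
    [IsLocalHom (algebraMap O R)] (hker : ∀ x, red x = 0 ↔ x ∈ maximalIdeal R)
    (hres : ρ.residual.IsEquiv (ρbar.baseChangeAlong (ResidueField.map (algebraMap O R)))) :
    Nonempty (Frame D red ρ) := by
  classical
  obtain ⟨bR, hbR⟩ := Deformation.exists_basis_reduces ρbar ρ hres
  have hredO : ∀ o : O, red (algebraMap O R o) = residue O o := fun o => red.commutes o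
  have hr : ∀ σ, (matOf ρ bR σ).map red = barMat ρbar σ := fun σ => Matrix.ext fun i j => by
    have h := (hker _).2 (hbR σ i j)
    rw [map_sub, hredO, Deformation.residue_barLift, sub_eq_zero] at h
    exact h
  set Q : M2 (ResidueField O) := (barBasis ρbar).toMatrix b with hQ
  have hQu : IsUnit Q := by
    have := (barBasis ρbar).invertibleToMatrix b
    exact isUnit_of_invertible _
  choose q hq using fun i j => residue_surjective (Q i j)
  set Q' : M2 R := Matrix.of fun i j => algebraMap O R (q i j) with hQ'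
  have hQ'red : Q'.map red = Q := Matrix.ext fun i j => by
    simp [hQ', hredO, hq i j]
  have hdet : IsUnit Q'.det := by
    by_contra hu
    have h0 : red Q'.det = 0 := (hker _).2 ((mem_maximalIdeal _).2 hu)
    rw [AlgHom.map_det, AlgHom.mapMatrix_apply, hQ'red] at h0
    exact ((Matrix.isUnit_iff_isUnit_det Q).1 hQu).ne_zero h0
  set v : Fin 2 → ρ.V := fun j => ∑ i, Q' i j • bR i with hv
  have hvQ : bR.toMatrix v = Q' := Matrix.ext fun i j => by
    simp [Module.Basis.toMatrix_apply, hv, Finsupp.single_apply, Fin.sum_univ_two]; fin_cases i <;> simp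
  obtain ⟨hli, hsp⟩ : LinearIndependent R v ∧ Submodule.span R (Set.range v) = ⊤ :=
    (Module.Basis.is_basis_iff_det bR).mpr (by rw [Module.Basis.det_apply, hvQ]; exact hdet)
  set b' : Module.Basis (Fin 2) R ρ.V := Module.Basis.mk hli hsp.ge with hb'
  have hb'Q : bR.toMatrix b' = Q' := by rw [← hvQ]; congr 1; exact Module.Basis.coe_mk _ _
  refine ⟨⟨b', fun σ => ?_, hker⟩⟩
  have hR : Q' * matOf ρ b' σ = matOf ρ bR σ * Q' := by
    rw [← hb'Q]
    exact (basis_toMatrix_mul_linearMap_toMatrix b' bR b' (ρ.ρ σ)).trans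
      (linearMap_toMatrix_mul_basis_toMatrix b' bR bR (ρ.ρ σ)).symm
  have hk : Q * (D.rb σ : M2 (ResidueField O)) = barMat ρbar σ * Q := by
    rw [hb σ]
    exact (basis_toMatrix_mul_linearMap_toMatrix b (barBasis ρbar) b (ρbar.ρ σ)).trans
      (linearMap_toMatrix_mul_basis_toMatrix b (barBasis ρbar) (barBasis ρbar) (ρbar.ρ σ)).symm
  have h1 := congrArg (fun M : M2 R => M.map red) hR
  simp only [Matrix.map_mul, hQ'red, hr, ← hk] at h1
  exact hQu.mul_left_cancel h1

/-- The exponent of the cyclotomic action. -/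
theorem apply_of_pow_eq_one (σ : GG) (μ : LL) (hμ : μ ^ p ^ 1 = 1) :
    σ μ = μ ^ (om p σ).val := by
  haveI : NeZero p := ⟨(Fact.out : p.Prime).ne_zero⟩
  rw [pow_one] at hμ
  obtain ⟨i, -, rfl⟩ := (zeta_spec p).eq_pow_of_pow_eq_one hμ
  rw [map_pow, apply_zeta, ← pow_mul, ← pow_mul, mul_comm]

theorem natCast_val_om (σ : GG) :
    ((om p σ).val : ResidueField O) = algebraMap (ZMod p) (ResidueField O) (om p σ) := by
  rw [← map_natCast (algebraMap (ZMod p) (ResidueField O)), ZMod.natCast_zmod_val]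

theorem natCast_p : (p : ResidueField O) = 0 := by
  rw [← map_natCast (algebraMap (ZMod p) (ResidueField O)), ZMod.natCast_self, map_zero]

variable {d : R → ResidueField O}

theorem d_zero (hd : d ∈ tanSp red) : d 0 = 0 := by simpa using hd.2.2 0

theorem d_one (hd : d ∈ tanSp red) : d 1 = 0 := by simpa using hd.2.2 1

theorem d_natCast (hd : d ∈ tanSp red) (n : ℕ) : d n = 0 := by simpa using hd.2.2 n

theorem d_sub (hd : d ∈ tanSp red) (x y : R) : d (x - y) = d x - d y := by
  rw [eq_sub_iff_add_eq, ← hd.1, sub_add_cancel]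

theorem d_sum (hd : d ∈ tanSp red) {ι : Type*} (s : Finset ι) (f : ι → R) :
    d (∑ i ∈ s, f i) = ∑ i ∈ s, d (f i) :=
  map_sum (AddMonoidHom.mk' d hd.1) f s

theorem d_matrix_mul (hd : d ∈ tanSp red) {l m n : Type*} [Fintype m] (M : Matrix l m R)
    (N : Matrix m n R) : (M * N).map d = M.map red * N.map d + M.map d * N.map red := by
  ext i j
  simp only [Matrix.map_apply, Matrix.add_apply, Matrix.mul_apply, d_sum hd, hd.2.1,
    ← Finset.sum_add_distrib]
  exact Finset.sum_congr rfl fun x _ => by ring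

theorem d_mulVec (hd : d ∈ tanSp red) (M : M2 R) (v : Fin 2 → R) :
    (fun i => d (M.mulVec v i)) =
      (M.map red).mulVec (fun i => d (v i)) + (M.map d).mulVec (fun i => red (v i)) := by
  funext i
  simp only [Matrix.mulVec, dotProduct, Pi.add_apply, Matrix.map_apply, d_sum hd, hd.2.1,
    ← Finset.sum_add_distrib]
  exact Finset.sum_congr rfl fun x _ => by ring

theorem d_det (hd : d ∈ tanSp red) (M : M2 R) :
    d M.det = (M.map d * (M.map red).adjugate).trace := by
  rw [Matrix.det_fin_two, d_sub hd, hd.2.1, hd.2.1]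
  simp [Matrix.adjugate_fin_two, Matrix.trace_fin_two, Matrix.mul_apply, Fin.sum_univ_two]
  ring

theorem d_sq_zero (hd : d ∈ tanSp red) (hker : ∀ x, red x = 0 ↔ x ∈ maximalIdeal R) {x : R}
    (hx : x ∈ maximalIdeal R ^ 2) : d x = 0 := by
  rw [pow_two] at hx
  induction hx using Submodule.mul_induction_on' with
  | mem_mul_mem a ha b hb => rw [hd.2.1, (hker a).2 ha, (hker b).2 hb, zero_mul, zero_mul, add_zero]
  | add a _ b _ ha hb => rw [hd.1, ha, hb, add_zero]

/-- The values at elements congruent to multiples of `p`. -/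
theorem red_d_of_mem_span (hd : d ∈ tanSp red) {x : R} {a : ℕ}
    (h : x - (a : R) ∈ Ideal.span {((p ^ 1 : ℕ) : R)}) :
    red x = a ∧ d x = 0 := by
  rw [pow_one, Ideal.mem_span_singleton] at h
  obtain ⟨y, hy⟩ := h
  rw [eq_add_of_sub_eq hy]
  constructor
  · rw [map_add, map_mul, map_natCast, map_natCast, natCast_p, zero_mul, zero_add]
  · rw [hd.1, hd.2.1, d_natCast hd, d_natCast hd, map_natCast, natCast_p]
    simp

variable (Fr : Frame D red ρ)
include Fr

/-- The cochain of a function on the ring. -/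
def cM (d : R → ResidueField O) (σ : GG) : M2 (ResidueField O) :=
  (matOf ρ Fr.b σ).map d * (((D.rb σ)⁻¹ : GL (Fin 2) (ResidueField O)) : M2 (ResidueField O))

theorem cM_mul_rb (d : R → ResidueField O) (σ : GG) :
    cM Fr d σ * (D.rb σ : M2 (ResidueField O)) = (matOf ρ Fr.b σ).map d := by
  rw [cM, mul_assoc, ← Units.val_mul, inv_mul_cancel, Units.val_one, mul_one]

theorem det_matOf (σ : GG) : (matOf ρ Fr.b σ).det = LinearMap.det (ρ.ρ σ) :=
  LinearMap.det_toMatrix Fr.b (ρ.ρ σ)

theorem trace_cM (hdet : ρ.DetIsCyclotomic p) (hd : d ∈ tanSp red) (σ : GG) :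
    Matrix.trace (cM Fr d σ) = 0 := by
  have hD : d (matOf ρ Fr.b σ).det = 0 :=
    (red_d_of_mem_span hd (hdet.2 1 σ _ fun μ hμ => apply_of_pow_eq_one σ μ hμ)).2 |> fun h => by
      rwa [det_matOf]
  set Rm : M2 (ResidueField O) := (D.rb σ : M2 (ResidueField O))
  set Ri : M2 (ResidueField O) :=
    (((D.rb σ)⁻¹ : GL (Fin 2) (ResidueField O)) : M2 (ResidueField O))
  have h1 : Rm * Ri = 1 := by rw [← Units.val_mul, mul_inv_cancel, Units.val_one]
  have hadj : Rm.adjugate = Rm.det • Ri := by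
    rw [← mul_one Rm.adjugate, ← h1, ← mul_assoc, Matrix.adjugate_mul, smul_mul_assoc, one_mul]
  have hne : Rm.det ≠ 0 := by
    intro h0
    have := congrArg Matrix.det h1
    rw [Matrix.det_mul, h0, zero_mul, Matrix.det_one] at this
    exact zero_ne_one this
  rw [d_det hd, Fr.red_eq] at hD
  change ((matOf ρ Fr.b σ).map d * Rm.adjugate).trace = 0 at hD
  rw [hadj, mul_smul_comm, Matrix.trace_smul, smul_eq_mul, mul_eq_zero] at hD
  exact hD.resolve_left hne

/-- The cocycle map. -/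
def cL (hdet : ρ.DetIsCyclotomic p) :
    ↥(tanSp red) →ₗ[ResidueField O] (GG → W (ResidueField O)) where
  toFun d σ := ⟨cM Fr d.1 σ, LinearMap.mem_ker.2 (trace_cM Fr hdet d.2 σ)⟩
  map_add' d d' := funext fun σ => Subtype.ext <| by
    show cM Fr (d.1 + d'.1) σ = cM Fr d.1 σ + cM Fr d'.1 σ
    rw [cM, cM, cM, ← add_mul]
    rfl
  map_smul' a d := funext fun σ => Subtype.ext <| by
    show cM Fr (a • d.1) σ = a • cM Fr d.1 σ
    rw [cM, cM, ← smul_mul_assoc]
    rfl

variable (hdet : ρ.DetIsCyclotomic p)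

theorem cL_val (d : ↥(tanSp red)) (σ : GG) : (cL Fr hdet d σ).1 = cM Fr d.1 σ := rfl

theorem cL_eq_zero (d : ↥(tanSp red)) {σ : GG} (h : ρ.ρ σ = 1) : cL Fr hdet d σ = 0 := by
  refine Subtype.ext ?_
  have h0 : (matOf ρ Fr.b σ).map d.1 = 0 := by
    have h1 : matOf ρ Fr.b σ = 1 := by
      show LinearMap.toMatrixAlgEquiv Fr.b (ρ.ρ σ) = 1
      rw [h, map_one]
    rw [h1]
    ext i j
    by_cases hij : i = j <;> simp [hij, d_one d.2, d_zero d.2]
  rw [cL_val, cM, h0, zero_mul]
  rfl

theorem rb_eq_one {σ : GG} (h : ρ.ρ σ = 1) : D.rb σ = 1 := by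
  refine Units.ext ?_
  rw [← Fr.red_eq]
  have h1 : matOf ρ Fr.b σ = 1 := by
    show LinearMap.toMatrixAlgEquiv Fr.b (ρ.ρ σ) = 1
    rw [h, map_one]
  rw [h1, Units.val_one]
  exact Matrix.map_one _ (map_zero red) (map_one red)

theorem cL_mul (d : ↥(tanSp red)) (σ τ : GG) :
    cL Fr hdet d (σ * τ) = cL Fr hdet d σ + ad D 0 σ (cL Fr hdet d τ) := by
  refine Subtype.ext ?_
  show cM Fr d.1 (σ * τ) = cM Fr d.1 σ + adM D 0 σ (cM Fr d.1 τ)
  have h1 : (D.rb τ : M2 (ResidueField O)) *
      (((D.rb τ)⁻¹ : GL (Fin 2) (ResidueField O)) : M2 (ResidueField O)) = 1 := by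
    rw [← Units.val_mul, mul_inv_cancel, Units.val_one]
  rw [adM_zero, cM, cM, cM, map_mul, d_matrix_mul d.2, Fr.red_eq, Fr.red_eq, map_mul,
    mul_inv_rev, Units.val_mul, add_mul, add_comm]
  congr 1
  · rw [mul_assoc, ← mul_assoc (D.rb τ : M2 (ResidueField O)), h1, one_mul]
  · simp only [mul_assoc]

theorem exists_level (d : ↥(tanSp red)) : LevC idG (cL Fr hdet d) := by
  obtain ⟨F, hF, h⟩ := Deformation.matCts_matOf ρ Fr.b 2
  refine ⟨F, hF, fun g s hs => ?_⟩
  have hs' : ∀ x ∈ F, s x = x := (IntermediateField.mem_fixingSubgroup_iff F s).1 hs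
  have hz : cL Fr hdet d s = 0 := by
    refine Subtype.ext ?_
    have h0 : (matOf ρ Fr.b s).map d.1 = 0 := by
      ext i j
      have h2 := d_sq_zero d.2 Fr.ker_red (h s hs' i j)
      rw [Matrix.sub_apply, d_sub d.2, sub_eq_zero] at h2
      rw [Matrix.map_apply, h2, Matrix.one_apply, Matrix.zero_apply]
      split <;> simp [d_one d.2, d_zero d.2]
    rw [cL_val, cM, h0, zero_mul]
    rfl
  show cL Fr hdet d (g * s) = _
  rw [cL_mul, hz, map_zero, add_zero]

theorem cL_mem_Z1 (d : ↥(tanSp red)) : cL Fr hdet d ∈ Z1 (ad D 0) idG :=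
  ⟨exists_level Fr hdet d, fun g h => cL_mul Fr hdet d g h⟩

theorem cL_mem_Z1S (d : ↥(tanSp red)) {T : Finset Nat.Primes}
    (hT : ∀ q : Nat.Primes, q ∉ T → ρ.IsUnramifiedAt (q : ℕ)) :
    cL Fr hdet d ∈ Z1S (ad D 0) idG T :=
  mem_Z1S_of_inertia (smooth_ad D 0) (cL_mem_Z1 Fr hdet d) fun q hq V hV σ hσ => by
    have h := hT q hq V hV σ hσ
    refine ⟨LinearMap.ext fun A => Subtype.ext ?_, cL_eq_zero Fr hdet d h⟩
    show adM D 0 σ A.1 = A.1
    rw [adM_zero, rb_eq_one Fr h]
    simp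

end Setup

end FLTAgent.TWPrimes.Glue
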