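import Fermat.Agent.TWPrimes.Glue.Interface
import Fermat.Agent.Deformation.PowerSeriesComplete
import Mathlib

/-!
# A bound for the derivations is a bound for the generators

Elements separating the derivations generate the maximal ideal together with the uniformiser, so
the power series ring surjects onto the ring by completeness.
-/

set_option autoImplicit false
set_option linter.style.haveILetI false
set_option linter.unusedSectionVars false

noncomputable section

open IsLocalRing

namespace FLTAgent.TWPrimes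

namespace Gen

variable {O : Type} [CommRing O] [IsLocalRing O] {R : Type} [CommRing R] [Algebra O R]

theorem red_algebraMap (red : R →ₐ[O] ResidueField O) (a : O) :
    red (algebraMap O R a) = residue O a := by
  rw [AlgHom.commutes, IsLocalRing.ResidueField.algebraMap_eq]

theorem sub_mem_of_red [IsLocalRing R] (red : R →ₐ[O] ResidueField O)
    (hker : ∀ x, x ∈ maximalIdeal R ↔ red x = 0) (x : R) :
    ∃ a : O, x - algebraMap O R a ∈ maximalIdeal R := by
  obtain ⟨a, ha⟩ := residue_surjective (red x)
  exact ⟨a, (hker _).2 (by rw [map_sub, red_algebraMap, ha, sub_self])⟩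

theorem red_eq_zero_iff [IsLocalRing R] (red : R →ₐ[O] ResidueField O) (x : R) :
    x ∈ maximalIdeal R ↔ red x = 0 := by
  have h : RingHom.ker red.toRingHom = maximalIdeal R :=
    IsLocalRing.eq_maximalIdeal (RingHom.ker_isMaximal_of_surjective red.toRingHom fun y => by
      obtain ⟨a, rfl⟩ := residue_surjective y
      exact ⟨algebraMap O R a, red_algebraMap red a⟩)
  rw [← h, RingHom.mem_ker]
  rfl

variable [IsLocalRing R] (red : R →ₐ[O] ResidueField O)

/-- The ideal of second order terms and constants. -/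
def cot : Ideal R := maximalIdeal R ^ 2 ⊔ (maximalIdeal O).map (algebraMap O R)

theorem cot_le : cot (O := O) (R := R) ≤ RingHom.ker red.toRingHom := by
  refine sup_le (fun x hx => ?_) (Ideal.map_le_iff_le_comap.2 fun a ha => ?_)
  · exact (red_eq_zero_iff red x).1 (Ideal.pow_le_self two_ne_zero hx)
  · show red (algebraMap O R a) = 0
    rw [red_algebraMap, residue_eq_zero_iff]
    exact ha

/-- Derivations see everything outside the second order terms and constants. -/
theorem mem_cot_of_forall {z : R} (hz : z ∈ maximalIdeal R)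
    (h : ∀ d ∈ tanSp red, d z = 0) : z ∈ cot (O := O) (R := R) := by
  by_contra hzJ
  set J : Ideal R := cot (O := O) (R := R) with hJ
  let ι : ResidueField O →+* R ⧸ J :=
    Ideal.Quotient.lift (maximalIdeal O) ((Ideal.Quotient.mk J).comp (algebraMap O R)) fun a ha =>
      Ideal.Quotient.eq_zero_iff_mem.2 (Submodule.mem_sup_right (Ideal.mem_map_of_mem _ ha))
  letI : Algebra (ResidueField O) (R ⧸ J) := ι.toAlgebra
  have hι : ∀ a : O, algebraMap (ResidueField O) (R ⧸ J) (residue O a) =
      Ideal.Quotient.mk J (algebraMap O R a) := fun a => rfl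
  let rd : R ⧸ J →+* ResidueField O := Ideal.Quotient.lift J red.toRingHom fun x hx =>
    cot_le red hx
  have hrd : ∀ c : ResidueField O, rd (algebraMap (ResidueField O) (R ⧸ J) c) = c := fun c => by
    obtain ⟨a, rfl⟩ := residue_surjective c
    rw [hι]
    exact red_algebraMap red a
  have hnot : Ideal.Quotient.mk J z ∉
      Submodule.span (ResidueField O) ({1} : Set (R ⧸ J)) := fun hmem => by
    obtain ⟨c, hc⟩ := Submodule.mem_span_singleton.1 hmem
    rw [Algebra.smul_def, mul_one] at hc
    have h1 := hrd c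
    rw [hc, show rd (Ideal.Quotient.mk J z) = red z from rfl, (red_eq_zero_iff red z).1 hz] at h1
    rw [← h1, map_zero] at hc
    exact hzJ (Ideal.Quotient.eq_zero_iff_mem.1 hc.symm)
  obtain ⟨φ, hφz, hφ1⟩ := Submodule.exists_dual_map_eq_bot_of_notMem hnot inferInstance
  have hφc : ∀ c : ResidueField O, φ (algebraMap (ResidueField O) (R ⧸ J) c) = 0 := fun c => by
    have h1 : φ (algebraMap (ResidueField O) (R ⧸ J) c) ∈
        (Submodule.span (ResidueField O) ({1} : Set (R ⧸ J))).map φ :=
      Submodule.mem_map_of_mem (Submodule.mem_span_singleton.2 ⟨c, by rw [Algebra.smul_def, mul_one]⟩)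
    rw [hφ1, Submodule.mem_bot] at h1
    exact h1
  refine hφz (h (fun x => φ (Ideal.Quotient.mk J x)) ⟨fun x y => by simp only [map_add],
    fun x y => ?_, fun a => ?_⟩)
  · obtain ⟨a, ha⟩ := sub_mem_of_red red (red_eq_zero_iff red) x
    obtain ⟨b, hb⟩ := sub_mem_of_red red (red_eq_zero_iff red) y
    have hx : red x = residue O a := by
      have h1 := (red_eq_zero_iff red _).1 ha
      rwa [map_sub, red_algebraMap, sub_eq_zero] at h1
    have hy : red y = residue O b := by
      have h1 := (red_eq_zero_iff red _).1 hb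
      rwa [map_sub, red_algebraMap, sub_eq_zero] at h1
    have huv : Ideal.Quotient.mk J ((x - algebraMap O R a) * (y - algebraMap O R b)) = 0 :=
      Ideal.Quotient.eq_zero_iff_mem.2
        (Submodule.mem_sup_left (by rw [pow_two]; exact Ideal.mul_mem_mul ha hb))
    rw [map_mul, map_sub, map_sub, ← hι, ← hι] at huv
    have he : Ideal.Quotient.mk J (x * y) =
        residue O a • Ideal.Quotient.mk J y + residue O b • Ideal.Quotient.mk J x -
          algebraMap (ResidueField O) (R ⧸ J) (residue O a * residue O b) := by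
      rw [Algebra.smul_def, Algebra.smul_def, map_mul, map_mul]
      linear_combination huv
    show φ (Ideal.Quotient.mk J (x * y)) = _
    rw [he, map_sub, map_add, map_smul, map_smul, hφc, sub_zero, hx, hy]
    rfl
  · show φ (Ideal.Quotient.mk J (algebraMap O R a)) = 0
    rw [← hι, hφc]

/-- The derivations are separated by as many elements as their dimension. -/
theorem exists_separating [FiniteDimensional (ResidueField O) ↥(tanSp red)] {r : ℕ}
    (hr : Module.finrank (ResidueField O) ↥(tanSp red) ≤ r) :
    ∃ x : Fin r → R, (∀ i, x i ∈ maximalIdeal R) ∧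
      maximalIdeal R ≤ Ideal.span (Set.range x) ⊔ cot (O := O) (R := R) := by
  let T := ↥(tanSp red)
  let ev : R → Module.Dual (ResidueField O) T := fun x =>
    { toFun := fun d => (d : R → ResidueField O) x
      map_add' := fun _ _ => rfl
      map_smul' := fun _ _ => rfl }
  let W : Submodule (ResidueField O) (Module.Dual (ResidueField O) T) :=
    { carrier := {f | ∃ x ∈ maximalIdeal R, ev x = f}
      zero_mem' := ⟨0, zero_mem _, LinearMap.ext fun d => by
        show (d : R → ResidueField O) 0 = 0
        have := d.2.1 0 0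
        rwa [add_zero, left_eq_add] at this⟩
      add_mem' := by
        rintro _ _ ⟨x, hx, rfl⟩ ⟨y, hy, rfl⟩
        exact ⟨x + y, add_mem hx hy, LinearMap.ext fun d => d.2.1 x y⟩
      smul_mem' := by
        rintro c _ ⟨x, hx, rfl⟩
        obtain ⟨a, rfl⟩ := residue_surjective c
        refine ⟨algebraMap O R a * x, Ideal.mul_mem_left _ _ hx, LinearMap.ext fun d => ?_⟩
        show (d : R → ResidueField O) (algebraMap O R a * x) =
          residue O a • (d : R → ResidueField O) x
        rw [d.2.2.1, d.2.2.2, mul_zero, add_zero, red_algebraMap, smul_eq_mul] }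
  have hW : W = ⊤ := by
    by_contra hne
    obtain ⟨f, hf, hfW⟩ := Submodule.exists_dual_map_eq_bot_of_lt_top
      (lt_top_iff_ne_top.2 hne) inferInstance
    obtain ⟨d, rfl⟩ := (Module.evalEquiv (ResidueField O) T).surjective f
    refine hf ?_
    have hm : ∀ x ∈ maximalIdeal R, (d : R → ResidueField O) x = 0 := fun x hx => by
      have h1 : Module.evalEquiv (ResidueField O) T d (ev x) ∈
          W.map (Module.evalEquiv (ResidueField O) T d) := Submodule.mem_map_of_mem ⟨x, hx, rfl⟩
      rw [hfW, Submodule.mem_bot] at h1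
      exact h1
    have hd : d = 0 := Subtype.ext (funext fun x => by
      obtain ⟨a, ha⟩ := sub_mem_of_red red (red_eq_zero_iff red) x
      rw [← sub_add_cancel x (algebraMap O R a), d.2.1, hm _ ha, d.2.2.2, add_zero]
      rfl)
    rw [hd, map_zero]
  let B := Module.finBasis (ResidueField O) (Module.Dual (ResidueField O) T)
  have hn : Module.finrank (ResidueField O) (Module.Dual (ResidueField O) T) ≤ r := by
    rw [Subspace.dual_finrank_eq]; exact hr
  have hlift : ∀ i, ∃ x ∈ maximalIdeal R, ev x = B i := fun i =>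
    show B i ∈ W from hW ▸ Submodule.mem_top
  choose x₀ hx₀ hx₀' using hlift
  let x : Fin r → R := fun i => if h : (i : ℕ) < _ then x₀ ⟨i, h⟩ else 0
  refine ⟨x, fun i => ?_, fun y hy => ?_⟩
  · show (if h : (i : ℕ) < _ then x₀ ⟨i, h⟩ else 0) ∈ _
    split_ifs with h
    · exact hx₀ _
    · exact zero_mem _
  · choose a ha using fun i => residue_surjective (B.repr (ev y) i)
    set s : R := ∑ i, algebraMap O R (a i) * x₀ i with hs
    have hsS : s ∈ Ideal.span (Set.range x) := Ideal.sum_mem _ fun i _ =>
      Ideal.mul_mem_left _ _ (Ideal.subset_span ⟨⟨i, i.2.trans_le hn⟩, dif_pos i.2⟩)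
    rw [← sub_add_cancel y s]
    refine add_mem (Submodule.mem_sup_right (mem_cot_of_forall red ?_ fun d hd => ?_))
      (Submodule.mem_sup_left hsS)
    · exact sub_mem hy (Ideal.sum_mem _ fun i _ => Ideal.mul_mem_left _ _ (hx₀ i))
    · let dd : R →+ ResidueField O := AddMonoidHom.mk' d hd.1
      have h1 : ev y ⟨d, hd⟩ = (∑ i, B.repr (ev y) i • ev (x₀ i)) ⟨d, hd⟩ := by
        conv_lhs => rw [← B.sum_repr (ev y)]
        simp only [hx₀']
      rw [LinearMap.sum_apply] at h1
      show dd (y - s) = 0
      rw [map_sub, sub_eq_zero, hs, map_sum]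
      refine h1.trans (Finset.sum_congr rfl fun i _ => ?_)
      show B.repr (ev y) i • d (x₀ i) = d (algebraMap O R (a i) * x₀ i)
      rw [hd.2.1, hd.2.2, mul_zero, add_zero, red_algebraMap, ha, smul_eq_mul]

variable [IsNoetherianRing R] [IsAdicComplete (maximalIdeal R) R]

/-- A map of power series onto elements of the maximal ideal, up to second order. -/
theorem exists_hom {r : ℕ} {x : Fin r → R} (hx : ∀ i, x i ∈ maximalIdeal R) :
    ∃ γ : MvPowerSeries (Fin r) O →ₐ[O] R,
      ∀ i, γ (MvPowerSeries.X i) - x i ∈ maximalIdeal R ^ 2 := by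
  classical
  have hmap : (MvPolynomial.idealOfVars (Fin r) O).map (MvPolynomial.aeval (R := O) x) ≤
      maximalIdeal R := by
    rw [MvPolynomial.idealOfVars, Ideal.map_span, Ideal.span_le]
    rintro _ ⟨_, ⟨i, rfl⟩, rfl⟩
    rw [MvPolynomial.aeval_X]
    exact hx i
  have hv : ∀ n, ∀ p ∈ MvPolynomial.idealOfVars (Fin r) O ^ n,
      MvPolynomial.aeval x p ∈ maximalIdeal R ^ n := fun n p hp => by
    have h1 := Ideal.mem_map_of_mem (MvPolynomial.aeval (R := O) x) hp
    rw [Ideal.map_pow] at h1
    exact Ideal.pow_right_mono hmap n h1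
  let f : ∀ n, MvPowerSeries (Fin r) O →ₐ[O] R ⧸ maximalIdeal R ^ n := fun n =>
    (Ideal.Quotient.liftₐ _ ((Ideal.Quotient.mkₐ O (maximalIdeal R ^ n)).comp
      (MvPolynomial.aeval (R := O) x)) fun p hp =>
        Ideal.Quotient.eq_zero_iff_mem.2 (hv n p hp)).comp
      ((MvPowerSeries.truncTotalAlgHom (Fin r) O n).restrictScalars O)
  have hf : ∀ {m n : ℕ} (hle : m ≤ n),
      (Ideal.Quotient.factorₐ O (Ideal.pow_le_pow_right hle)).comp (f n) = f m := fun {m n} hle =>
    AlgHom.ext fun p => by
      show Ideal.Quotient.mk (maximalIdeal R ^ m) (MvPolynomial.aeval x (p.truncTotal n)) =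
        Ideal.Quotient.mk (maximalIdeal R ^ m) (MvPolynomial.aeval x (p.truncTotal m))
      rw [Ideal.Quotient.mk_eq_mk_iff_sub_mem, ← map_sub]
      exact hv m _ (MvPowerSeries.truncTotal_sub_truncTotal_mem_pow_idealOfVars hle le_rfl p)
  refine ⟨IsAdicComplete.liftAlgHom (maximalIdeal R) f hf, fun i => ?_⟩
  rw [← Ideal.Quotient.mk_eq_mk_iff_sub_mem, IsAdicComplete.mk_liftAlgHom]
  simp only [f, AlgHom.comp_apply, AlgHom.restrictScalars_apply]
  rw [← MvPolynomial.coe_X,
    show ((MvPolynomial.X i : MvPolynomial (Fin r) O) : MvPowerSeries (Fin r) O) =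
      algebraMap (MvPolynomial (Fin r) O) (MvPowerSeries (Fin r) O) (MvPolynomial.X i) from rfl,
    AlgHom.commutes]
  show Ideal.Quotient.mk _ (MvPolynomial.aeval x (MvPolynomial.X i)) = _
  rw [MvPolynomial.aeval_X]

end Gen

open Gen in
/-- A bound for the derivations is a bound for the generators. -/
theorem targetGenerators : TargetGenerators := by
  intro O _ _ _ _ _ R _ _ _ _ _ _ hsurj red r hfin hr
  obtain ⟨x, hx, hgen⟩ := exists_separating red hr
  obtain ⟨γ, hγ⟩ := exists_hom (O := O) hx
  refine ⟨γ, ?_⟩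
  set P := MvPowerSeries (Fin r) O
  have hres : Function.Surjective ((residue R).comp γ.toRingHom) := fun y => by
    obtain ⟨a, ha⟩ := hsurj y
    exact ⟨algebraMap O P a, by
      show residue R (γ (algebraMap O P a)) = y
      rw [AlgHom.commutes]; exact ha⟩
  have hle : (maximalIdeal P).map γ.toRingHom ≤ maximalIdeal R := by
    rw [Ideal.map_le_iff_le_comap, ← IsLocalRing.eq_maximalIdeal
      (RingHom.ker_isMaximal_of_surjective _ hres)]
    intro p hp
    rw [RingHom.mem_ker] at hp
    exact (residue_eq_zero_iff _).1 hp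
  have hX : ∀ i, MvPowerSeries.X i ∈ maximalIdeal P := fun i => by
    rw [mem_maximalIdeal, mem_nonunits_iff, MvPowerSeries.isUnit_iff_constantCoeff]
    simp
  have hO : (maximalIdeal O).map (algebraMap O R) ≤ (maximalIdeal P).map γ.toRingHom :=
    Ideal.map_le_iff_le_comap.2 fun a ha => by
      rw [Ideal.mem_comap, ← γ.commutes a]
      refine Ideal.mem_map_of_mem γ.toRingHom ?_
      rw [mem_maximalIdeal, mem_nonunits_iff, MvPowerSeries.isUnit_iff_constantCoeff,
        MvPowerSeries.algebraMap_apply, MvPowerSeries.constantCoeff_C]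
      exact ha
  have hspan : Ideal.span (Set.range x) ≤
      (maximalIdeal P).map γ.toRingHom ⊔ maximalIdeal R ^ 2 := by
    rw [Ideal.span_le]
    rintro _ ⟨i, rfl⟩
    rw [← sub_sub_cancel (γ (MvPowerSeries.X i)) (x i)]
    exact sub_mem (Submodule.mem_sup_left (Ideal.mem_map_of_mem γ.toRingHom (hX i)))
      (Submodule.mem_sup_right (hγ i))
  have heq : (maximalIdeal P).map γ.toRingHom = maximalIdeal R := by
    refine le_antisymm hle (Submodule.le_of_le_smul_of_le_jacobson_bot (IsNoetherian.noetherian _)
      (IsLocalRing.maximalIdeal_le_jacobson _) ?_)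
    rw [smul_eq_mul, ← pow_two]
    exact hgen.trans (sup_le hspan (sup_le le_sup_right (hO.trans le_sup_left)))
  haveI := Deformation.isAdicComplete_mvPowerSeries (O := O) r
  haveI : IsHausdorff ((maximalIdeal P).map γ.toRingHom) R := by rw [heq]; infer_instance
  refine surjective_of_mk_map_comp_surjective (I := maximalIdeal P) γ.toRingHom fun y => ?_
  obtain ⟨y, rfl⟩ := Ideal.Quotient.mk_surjective y
  obtain ⟨p, hp⟩ := hres (residue R y)
  refine ⟨p, ?_⟩
  rw [RingHom.comp_apply, Ideal.Quotient.mk_eq_mk_iff_sub_mem, heq, ← residue_eq_zero_iff, map_sub,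
    sub_eq_zero]
  exact hp

end FLTAgent.TWPrimes
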