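import Fermat.Agent.TWPrimes.Interface
import Fermat.Prelude.Def_GaloisRep_DeformationRingData
import Fermat.Prelude.Def_GaloisRep_LocalConditions
import Mathlib.RingTheory.MvPowerSeries.Basic

/-!
# From deformation rings to framed cocycles: interface

`tanSp` is the space of derivations at the residual point killing the constants.
-/

set_option autoImplicit false

noncomputable section

open IsLocalRing

namespace FLTAgent.TWPrimes

local notation "GG" => (AlgebraicClosure ℚ ≃ₐ[ℚ] AlgebraicClosure ℚ)

/-- The derivations at the residual point killing the constants. -/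
def tanSp {O : Type} [CommRing O] [IsLocalRing O] {R : Type} [CommRing R] [Algebra O R]
    (red : R →ₐ[O] ResidueField O) : Submodule (ResidueField O) (R → ResidueField O) where
  carrier := {d | (∀ x y, d (x + y) = d x + d y) ∧
    (∀ x y, d (x * y) = red x * d y + red y * d x) ∧ ∀ a : O, d (algebraMap O R a) = 0}
  zero_mem' := ⟨by simp, by simp, by simp⟩
  add_mem' := fun {a b} ha hb => ⟨fun x y => by simp only [Pi.add_apply, ha.1, hb.1]; ring,
    fun x y => by simp only [Pi.add_apply, ha.2.1, hb.2.1]; ring,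
    fun c => by simp [ha.2.2, hb.2.2]⟩
  smul_mem' := fun c a ha => ⟨fun x y => by simp only [Pi.smul_apply, ha.1, smul_add],
    fun x y => by simp only [Pi.smul_apply, smul_eq_mul, ha.2.1]; ring,
    fun b => by simp [ha.2.2]⟩

/-- A bound for the derivations is a bound for the generators. -/
def TargetGenerators : Prop :=
  ∀ (O : Type) [CommRing O] [IsDomain O] [IsDiscreteValuationRing O]
    [IsAdicComplete (maximalIdeal O) O] [Finite (ResidueField O)]
    (R : Type) [CommRing R] [IsLocalRing R] [IsNoetherianRing R]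
    [IsAdicComplete (maximalIdeal R) R] [Algebra O R] [IsLocalHom (algebraMap O R)],
    Function.Surjective (residue R ∘ algebraMap O R) →
    ∀ (red : R →ₐ[O] ResidueField O) (r : ℕ),
      FiniteDimensional (ResidueField O) ↥(tanSp red) →
      Module.finrank (ResidueField O) ↥(tanSp red) ≤ r →
        ∃ γ : MvPowerSeries (Fin r) O →ₐ[O] R, Function.Surjective γ

/-- The residual representation gives a datum. -/
def TargetResidual : Prop :=
  ∀ (O : Type) [CommRing O] [IsDomain O] [IsDiscreteValuationRing O]
    [IsAdicComplete (maximalIdeal O) O] [Finite (ResidueField O)] (p : ℕ) [Fact p.Prime]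
    [Algebra (ZMod p) (ResidueField O)], p ≠ 2 → (p : O) ∈ maximalIdeal O →
    ∀ ρbar : ResidualGaloisRep (ResidueField O), ρbar.IsAbsolutelyIrreducible →
      (GaloisRepAdic.ofResidualGaloisRep ρbar).DetIsCyclotomic p →
      (∀ σ : GG, ∃ α β : ResidueField O, LinearMap.charpoly (ρbar.ρ σ) =
        (Polynomial.X - Polynomial.C α) * (Polynomial.X - Polynomial.C β)) →
      (∀ (K : Type) [Field K] [Algebra (ResidueField O) K] (G : Subgroup GG), G.index = 2 →
        ∀ V : Submodule K (ρbar.baseChange K).V,
          (∀ σ ∈ G, ∀ x ∈ V, (ρbar.baseChange K).ρ σ x ∈ V) → V = ⊥ ∨ V = ⊤) →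
      ∀ Smin : Finset ℕ, p ∈ Smin → (∀ q ∈ Smin, q.Prime) →
        (∀ q : ℕ, q.Prime → q ≠ p → (q ∈ Smin ↔ ¬ ρbar.IsUnramifiedAt q)) →
        ∃ (D : Datum p (ResidueField O)) (b : Module.Basis (Fin 2) (ResidueField O) ρbar.V),
          (∀ σ, (D.rb σ : Matrix (Fin 2) (Fin 2) (ResidueField O)) =
            LinearMap.toMatrix b b (ρbar.ρ σ)) ∧
          ∀ q : Nat.Primes, q ∈ D.bad ↔ (q : ℕ) ∈ Smin

end FLTAgent.TWPrimes
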