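import Fermat.Agent.TWPrimes.Glue.Targets
import Fermat.Agent.Deformation.TestAlgebra
import Mathlib.LinearAlgebra.Matrix.Charpoly.Basic
import Mathlib.LinearAlgebra.Charpoly.ToMatrix

/-!
# Auxiliary primes bounding the number of generators of the deformation rings
-/

set_option autoImplicit false
set_option linter.style.haveILetI false

noncomputable section

open IsLocalRing Polynomial

namespace FLTAgent.TWPrimes

local notation "GG" => (AlgebraicClosure ℚ ≃ₐ[ℚ] AlgebraicClosure ℚ)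

theorem exists_taylorWiles_of_targets (hG : TargetGenerators) (hR : TargetResidual)
    (hT : TargetTanBound)
    {O : Type} [CommRing O] [IsDomain O] [IsDiscreteValuationRing O]
    [IsAdicComplete (maximalIdeal O) O] [Finite (ResidueField O)]
    (p : ℕ) [Fact p.Prime] (hp2 : p ≠ 2) (hpO : (p : O) ∈ maximalIdeal O)
    (ρbar : ResidualGaloisRep (ResidueField O))
    (habs : ρbar.IsAbsolutelyIrreducible)
    (hdet : (GaloisRepAdic.ofResidualGaloisRep ρbar).DetIsCyclotomic p)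
    (hsplit : ∀ σ : GG, ∃ α β : ResidueField O,
      LinearMap.charpoly (ρbar.ρ σ) = (X - C α) * (X - C β))
    (hTW : ∀ (K : Type) [Field K] [Algebra (ResidueField O) K] (G : Subgroup GG), G.index = 2 →
      ∀ V : Submodule K (ρbar.baseChange K).V,
        (∀ σ ∈ G, ∀ x ∈ V, (ρbar.baseChange K).ρ σ x ∈ V) → V = ⊥ ∨ V = ⊤)
    (S Smin : Finset ℕ) (hpSmin : p ∈ Smin) (hSmin : Smin ⊆ S) (hS : ∀ q ∈ S, q.Prime)
    (hmin : ∀ q : ℕ, q.Prime → q ≠ p → (q ∈ Smin ↔ ¬ ρbar.IsUnramifiedAt q)) :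
    (∃ r : ℕ, ∀ n : ℕ, ∃ qv : Fin r → ℕ, Function.Injective qv ∧
      (∀ i, (qv i).Prime ∧ qv i ∉ S ∧ p ^ (n + 1) ∣ qv i - 1) ∧
      (∀ i, ∀ P : ValuationSubring (AlgebraicClosure ℚ), P.LiesOverPrime (qv i) →
        ∀ φ : GG, P.IsFrobeniusAt φ (qv i) →
          ∃ α β : ResidueField O, α ≠ β ∧
            LinearMap.charpoly (ρbar.ρ φ) = (X - C α) * (X - C β)) ∧
      ∀ DQ : GaloisRep.DeformationRingData O ρbar (fun _A _ _ _ ρ =>
          GaloisRep.strictOrdinaryCondition O p (Smin ∪ Finset.univ.image qv) ρ ∧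
            ∀ q ∈ Smin, q.Prime → q ≠ p → ρ.IsUnipotentOnInertiaAt q),
        ∃ γ : MvPowerSeries (Fin r) O →ₐ[O] DQ.R, Function.Surjective γ) ∧
    (∃ r : ℕ, ∀ n : ℕ, ∃ qv : Fin r → ℕ, Function.Injective qv ∧
      (∀ i, (qv i).Prime ∧ qv i ∉ S ∧ p ^ (n + 1) ∣ qv i - 1) ∧
      (∀ i, ∀ P : ValuationSubring (AlgebraicClosure ℚ), P.LiesOverPrime (qv i) →
        ∀ φ : GG, P.IsFrobeniusAt φ (qv i) →
          ∃ α β : ResidueField O, α ≠ β ∧
            LinearMap.charpoly (ρbar.ρ φ) = (X - C α) * (X - C β)) ∧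
      ∀ DQ : GaloisRep.DeformationRingData O ρbar (fun _A _ _ _ ρ =>
          GaloisRep.flatCondition O p (Smin ∪ Finset.univ.image qv) ρ ∧
            ∀ q ∈ Smin, q.Prime → q ≠ p → ρ.IsUnipotentOnInertiaAt q),
        ∃ γ : MvPowerSeries (Fin r) O →ₐ[O] DQ.R, Function.Surjective γ) := by
  classical
  haveI : CharP (ResidueField O) p := (CharP.charP_iff_prime_eq_zero Fact.out).2 (by
    rw [← map_natCast (residue O), residue_eq_zero_iff]; exact hpO)
  letI : Algebra (ZMod p) (ResidueField O) := ZMod.algebra (ResidueField O) p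
  have hSp : ∀ q ∈ Smin, q.Prime := fun q hq => hS q (hSmin hq)
  obtain ⟨D, b, hb, hbad⟩ :=
    hR O p hp2 hpO ρbar habs hdet hsplit hTW Smin hpSmin hSp hmin
  obtain ⟨r, hr⟩ := hT O p hp2 ρbar D b hb Smin hbad hSp
    fun q hq hqp => (hmin q (hSp q hq) hqp).1 hq
  let avoid : Finset Nat.Primes := S.attach.image fun x => ⟨x.1, hS x.1 x.2⟩
  have hqv : ∀ n : ℕ, ∃ qv : Fin r → ℕ, ∃ Q : Finset Nat.Primes, Function.Injective qv ∧
      (∀ i, (qv i).Prime ∧ qv i ∉ S ∧ p ^ (n + 1) ∣ qv i - 1) ∧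
      (∀ i, ∀ P : ValuationSubring (AlgebraicClosure ℚ), P.LiesOverPrime (qv i) →
        ∀ φ : GG, P.IsFrobeniusAt φ (qv i) →
          ∃ α β : ResidueField O, α ≠ β ∧
            LinearMap.charpoly (ρbar.ρ φ) = (X - C α) * (X - C β)) ∧
      Finset.univ.image qv = Q.image (fun q : Nat.Primes => (q : ℕ)) ∧
      (∀ (DQ : GaloisRep.DeformationRingData O ρbar (fun _A _ _ _ ρ =>
          GaloisRep.strictOrdinaryCondition O p (Smin ∪ Q.image fun q : Nat.Primes => (q : ℕ)) ρ ∧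
            ∀ q ∈ Smin, q.Prime → q ≠ p → ρ.IsUnipotentOnInertiaAt q))
        (red : DQ.R →ₐ[O] ResidueField O),
        FiniteDimensional (ResidueField O) ↥(tanSp red) ∧
          Module.finrank (ResidueField O) ↥(tanSp red) ≤ r) ∧
      ∀ (DQ : GaloisRep.DeformationRingData O ρbar (fun _A _ _ _ ρ =>
          GaloisRep.flatCondition O p (Smin ∪ Q.image fun q : Nat.Primes => (q : ℕ)) ρ ∧
            ∀ q ∈ Smin, q.Prime → q ≠ p → ρ.IsUnipotentOnInertiaAt q))
        (red : DQ.R →ₐ[O] ResidueField O),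
        FiniteDimensional (ResidueField O) ↥(tanSp red) ∧
          Module.finrank (ResidueField O) ↥(tanSp red) ≤ r := by
    intro n
    obtain ⟨Q, hQc, hQ, hs, hf⟩ := hr n avoid
    let e : Fin r ≃ ↥Q := (Finset.equivFinOfCardEq hQc).symm
    refine ⟨fun i => ((e i).1 : ℕ), Q,
      fun i j h => e.injective (Subtype.ext (Subtype.ext h)), fun i => ?_, fun i P hP φ hφ => ?_,
      ?_, hs, hf⟩
    · obtain ⟨hav, haux⟩ := hQ _ (e i).2
      exact ⟨(e i).1.2, fun h => hav (Finset.mem_image.2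
        ⟨⟨_, h⟩, Finset.mem_attach _ _, Subtype.ext rfl⟩), haux.2.1⟩
    · obtain ⟨α, β, hne, htr, hd⟩ := (hQ _ (e i).2).2.2.2 P hP φ hφ
      refine ⟨α, β, hne, ?_⟩
      rw [← LinearMap.charpoly_toMatrix (ρbar.ρ φ) b, ← hb, Matrix.charpoly_fin_two, htr, hd,
        map_add, map_mul]
      ring
    · ext q
      simp only [Finset.mem_image, Finset.mem_univ, true_and]
      exact ⟨fun ⟨i, hi⟩ => ⟨_, (e i).2, hi⟩,
        fun ⟨x, hx, hxq⟩ => ⟨e.symm ⟨x, hx⟩, by rw [Equiv.apply_symm_apply]; exact hxq⟩⟩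
  choose qv Q hinj hq hfrob himg hs hf using hqv
  refine ⟨⟨r, fun n => ⟨qv n, hinj n, hq n, hfrob n, ?_⟩⟩, ⟨r, fun n => ⟨qv n, hinj n, hq n, hfrob n, ?_⟩⟩⟩
  · rw [himg n]
    intro DQ
    have h := DQ.residue_surjective
    obtain ⟨h1, h2⟩ := hs n DQ (Deformation.toResidue h)
    exact hG O DQ.R h (Deformation.toResidue h) r h1 h2
  · rw [himg n]
    intro DQ
    have h := DQ.residue_surjective
    obtain ⟨h1, h2⟩ := hf n DQ (Deformation.toResidue h)
    exact hG O DQ.R h (Deformation.toResidue h) r h1 h2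

end FLTAgent.TWPrimes
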