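import Fermat.Agent.TWPrimes.Glue.Quotient
import Fermat.Prelude.Def_GaloisRep_DeformationRingData

/-!
# A derivation whose cocycle is a coboundary vanishes
-/

set_option autoImplicit false
set_option linter.unusedSectionVars false
set_option linter.style.haveILetI false

noncomputable section

open IsLocalRing TrivSqZeroExt
open scoped DualNumber

namespace FLTAgent.TWPrimes.Glue

open FLTAgent.PoitouTate
open FLTAgent.Deformation (matOf matOf_apply mapMat repOfMatrix)

local notation "GG" => (AlgebraicClosure ℚ ≃ₐ[ℚ] AlgebraicClosure ℚ)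
local notation "M2" => Matrix (Fin 2) (Fin 2)
local notation "idG" => MonoidHom.id (AlgebraicClosure ℚ ≃ₐ[ℚ] AlgebraicClosure ℚ)

section Phi

variable {O : Type} [CommRing O] [IsLocalRing O]
  {R : Type} [CommRing R] [Algebra O R] {red : R →ₐ[O] ResidueField O}
  {d : R → ResidueField O}

/-- The point over the dual numbers of a derivation. -/
def phi (red : R →ₐ[O] ResidueField O) (d : R → ResidueField O) (hd : d ∈ tanSp red) :
    R →ₐ[O] (ResidueField O)[ε] where
  toFun x := inl (red x) + inr (d x)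
  map_one' := by
    have h : d 1 = 0 := by simpa using hd.2.2 1
    simp [h]
  map_zero' := by
    have h : d 0 = 0 := by simpa using hd.2.2 0
    simp [h]
  map_add' x y := by
    rw [map_add, hd.1, inl_add, inr_add]
    abel
  map_mul' x y := by
    refine TrivSqZeroExt.ext ?_ ?_
    · simp
    · simp [hd.2.1, mul_comm]
  commutes' a := by
    rw [hd.2.2, inr_zero, add_zero, AlgHom.commutes]
    rfl

theorem phi_apply (hd : d ∈ tanSp red) (x : R) : phi red d hd x = inl (red x) + inr (d x) := rfl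

theorem phi_eq_zero_iff (hd : d ∈ tanSp red) (x : R) :
    phi red d hd x = 0 ↔ red x = 0 ∧ d x = 0 := by
  rw [phi_apply, TrivSqZeroExt.ext_iff]
  simp

theorem exists_red_d (hd : d ∈ tanSp red) (hne : d ≠ 0) (a b : ResidueField O) :
    ∃ x, red x = a ∧ d x = b := by
  obtain ⟨x, hx⟩ := Function.ne_iff.1 hne
  obtain ⟨o, ho⟩ := residue_surjective (red x)
  set x' := x - algebraMap O R o
  have hd0 : ∀ u v : R, d (u - v) = d u - d v := fun u v => by
    rw [eq_sub_iff_add_eq, ← hd.1, sub_add_cancel]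
  have hx1 : red x' = 0 := by
    rw [map_sub, AlgHom.commutes]
    exact sub_eq_zero.2 ho.symm
  have hx2 : d x' = d x := by rw [hd0, hd.2.2, sub_zero]
  obtain ⟨oa, hoa⟩ := residue_surjective a
  obtain ⟨oc, hoc⟩ := residue_surjective (b / d x)
  refine ⟨algebraMap O R oa + algebraMap O R oc * x', ?_, ?_⟩
  · rw [map_add, map_mul, hx1, mul_zero, add_zero, AlgHom.commutes]
    exact hoa
  · rw [hd.1, hd.2.1, hd.2.2, hd.2.2, hx1, zero_mul, add_zero, zero_add, hx2, AlgHom.commutes]
    show residue O oc * d x = b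
    rw [hoc, div_mul_cancel₀]
    exact hx

theorem phi_surjective (hd : d ∈ tanSp red) (hne : d ≠ 0) :
    Function.Surjective (phi red d hd) := fun z => by
  obtain ⟨x, h1, h2⟩ := exists_red_d hd hne z.fst z.snd
  exact ⟨x, by rw [phi_apply, h1, h2, inl_fst_add_inr_snd_eq]⟩

/-- A matrix over the dual numbers from its two parts. -/
def dmat {k : Type} [Field k] (A B : M2 k) : M2 k[ε] := A.map inl + B.map inr

theorem dmat_mul {k : Type} [Field k] (A B C E : M2 k) :
    dmat A B * dmat C E = dmat (A * C) (A * E + B * C) := by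
  refine Matrix.ext fun i j => TrivSqZeroExt.ext ?_ ?_
  · simp [dmat, Matrix.mul_apply, Fin.sum_univ_two]
  · simp [dmat, Matrix.mul_apply, Fin.sum_univ_two]
    ring

theorem dmat_one_zero {k : Type} [Field k] : dmat (1 : M2 k) 0 = 1 := by
  refine Matrix.ext fun i j => TrivSqZeroExt.ext ?_ ?_ <;>
    by_cases hij : i = j <;> simp [dmat, hij, Matrix.one_apply]

theorem map_phi (hd : d ∈ tanSp red) (M : M2 R) :
    M.map (phi red d hd) = dmat (M.map red) (M.map d) := Matrix.ext fun _ _ => rfl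

end Phi

variable {O : Type} [CommRing O] [IsDomain O] [IsDiscreteValuationRing O]
  [IsAdicComplete (maximalIdeal O) O] [Finite (ResidueField O)]
  {p : ℕ} [Fact p.Prime] [Algebra (ZMod p) (ResidueField O)] {D : Datum p (ResidueField O)}
  {ρbar : ResidualGaloisRep (ResidueField O)}
  {𝒟 : ∀ ⦃A : Type⦄ [CommRing A] [IsLocalRing A] [Algebra O A], GaloisRepAdic A → Prop}

/-- The condition survives surjections onto the dual numbers. -/
def StableDual (DQ : GaloisRep.DeformationRingData O ρbar 𝒟) : Prop :=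
  ∀ (φ : DQ.R →ₐ[O] (ResidueField O)[ε]) (hφ : IsLocalHom (φ : DQ.R →+* (ResidueField O)[ε])),
    Function.Surjective φ → 𝒟 (DQ.ρ.baseChangeAlong (φ : DQ.R →+* (ResidueField O)[ε]) hφ)

theorem eq_zero_of_cob (DQ : GaloisRep.DeformationRingData O ρbar 𝒟) (hst : StableDual DQ)
    {red : DQ.R →ₐ[O] ResidueField O} (Fr : Frame D red DQ.ρ) (hdet : DQ.ρ.DetIsCyclotomic p)
    (d : ↥(tanSp red)) (h : cL Fr hdet d ∈ B1 (ad D 0) idG) : d = 0 := by
  by_contra hd0
  have hne : d.1 ≠ 0 := fun e => hd0 (Subtype.ext e)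
  obtain ⟨m, hm⟩ := h
  haveI := isAdicComplete_dual (k := ResidueField O)
  have hresA : Function.Surjective
      (residue (ResidueField O)[ε] ∘ algebraMap O (ResidueField O)[ε]) := fun y => by
    obtain ⟨z, rfl⟩ := residue_surjective y
    obtain ⟨o, ho⟩ := residue_surjective z.fst
    refine ⟨o, ?_⟩
    rw [Function.comp_apply, ← sub_eq_zero, ← map_sub, residue_eq_zero_iff, mem_maximalIdeal,
      mem_nonunits_iff, isUnit_iff_isUnit_fst, fst_sub]
    show ¬ IsUnit (residue O o - z.fst)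
    rw [ho, sub_self]
    exact not_isUnit_zero
  haveI : IsLocalHom (algebraMap O (ResidueField O)[ε]) :=
    Deformation.isLocalHom_of_residue_surjective hresA
  set φ := phi red d.1 d.2
  have h0mem : (0 : DQ.R → ResidueField O) ∈ tanSp red := Submodule.zero_mem _
  set φ₀ := phi red 0 h0mem
  have hlocal : ∀ ψ : DQ.R →ₐ[O] (ResidueField O)[ε],
      (∀ x, (ψ x).fst = red x) → IsLocalHom (ψ : DQ.R →+* (ResidueField O)[ε]) := fun ψ hψ =>
    ⟨fun a ha => by
      by_contra hna
      have h1 := (Fr.ker_red a).2 ((mem_maximalIdeal a).2 hna)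
      have h2 := isUnit_iff_isUnit_fst.1 ha
      rw [AlgHom.coe_toRingHom, hψ, h1] at h2
      exact not_isUnit_zero h2⟩
  have hφl : IsLocalHom (φ : DQ.R →+* (ResidueField O)[ε]) := hlocal φ fun x => by simp [φ, phi_apply]
  have hφ₀l : IsLocalHom (φ₀ : DQ.R →+* (ResidueField O)[ε]) :=
    hlocal φ₀ fun x => by simp [φ₀, phi_apply]
  set r := matOf DQ.ρ Fr.b with hr
  have hcts := Deformation.matCts_matOf DQ.ρ Fr.b
  -- the conjugation between the two points
  have hrel : ∀ σ, (r σ).map d.1 =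
      (D.rb σ : M2 (ResidueField O)) * m.1 - m.1 * (D.rb σ : M2 (ResidueField O)) := fun σ => by
    have h1 := congrArg Subtype.val (congrFun hm σ)
    rw [d0_apply, MonoidHom.id_apply, Submodule.coe_sub, cL_val] at h1
    change adM D 0 σ m.1 - m.1 = cM Fr d.1 σ at h1
    rw [← cM_mul_rb Fr d.1 σ, ← h1, adM_zero, sub_mul, mul_assoc, ← Units.val_mul,
      inv_mul_cancel, Units.val_one, mul_one]
  have hunit : IsUnit (dmat (1 : M2 (ResidueField O)) (-m.1)) :=
    ⟨⟨dmat 1 (-m.1), dmat 1 m.1, by rw [dmat_mul]; simp [dmat_one_zero],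
      by rw [dmat_mul]; simp [dmat_one_zero]⟩, rfl⟩
  have hconj : ∀ σ, dmat 1 (-m.1) * mapMat (φ₀ : DQ.R →+* _) r σ =
      mapMat (φ : DQ.R →+* _) r σ * dmat 1 (-m.1) := fun σ => by
    rw [Deformation.mapMat_apply, Deformation.mapMat_apply, AlgHom.coe_toRingHom,
      AlgHom.coe_toRingHom, map_phi, map_phi, dmat_mul, dmat_mul]
    rw [hr, Fr.red_eq, ← hr, hrel σ]
    congr 1
    · rw [one_mul, mul_one]
    · have e0 : (r σ).map (0 : DQ.R → ResidueField O) = 0 := Matrix.ext fun _ _ => rfl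
      rw [e0]
      simp only [one_mul, mul_zero, mul_one, neg_mul, mul_neg, zero_add]
      abel
  have heq0 : (DQ.ρ.baseChangeAlong (φ₀ : DQ.R →+* (ResidueField O)[ε]) hφ₀l).IsEquiv
      (DQ.ρ.baseChangeAlong (φ : DQ.R →+* (ResidueField O)[ε]) hφl) :=
    Deformation.isEquiv_trans (Deformation.isEquiv_symm
        (Deformation.baseChange_isEquiv _ hφ₀l DQ.ρ r hcts Fr.b fun _ => rfl))
      (Deformation.isEquiv_trans
        (Deformation.isEquiv_repOfMatrix_of_conj (hcts.map _ hφ₀l) (hcts.map _ hφl) hunit hconj)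
        (Deformation.baseChange_isEquiv _ hφl DQ.ρ r hcts Fr.b fun _ => rfl))
  -- the residual representation of the point
  obtain ⟨bR, hbR⟩ := Deformation.exists_basis_reduces ρbar DQ.ρ DQ.residual_isEquiv
  have hcts1 := (Deformation.matCts_matOf DQ.ρ bR).map
    (φ : DQ.R →+* (ResidueField O)[ε]) hφl
  set r1 := mapMat (φ : DQ.R →+* (ResidueField O)[ε]) (matOf DQ.ρ bR)
  let bs : Module.Basis (Fin 2) (ResidueField O)[ε] (repOfMatrix r1 hcts1).V :=
    Pi.basisFun (ResidueField O)[ε] (Fin 2)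
  have hbs : matOf (repOfMatrix r1 hcts1) bs = r1 := MonoidHom.ext fun σ => Matrix.ext fun i j => by
    rw [matOf_apply]
    show (Pi.basisFun (ResidueField O)[ε] (Fin 2)).repr
      ((r1 σ).mulVec (Pi.basisFun (ResidueField O)[ε] (Fin 2) j)) i = _
    simp [Matrix.mulVec, dotProduct, Pi.single_apply]
  obtain ⟨e⟩ := Deformation.baseChange_isEquiv (φ : DQ.R →+* (ResidueField O)[ε]) hφl DQ.ρ
    (matOf DQ.ρ bR) (Deformation.matCts_matOf DQ.ρ bR) bR fun _ => rfl
  obtain ⟨e2⟩ := Deformation.residual_isEquiv_of_reduces ρbar (repOfMatrix r1 hcts1) bs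
    (by rw [hbs]; exact Deformation.Reduces.map ρbar hbR φ hφl)
  have hres : (DQ.ρ.baseChangeAlong (φ : DQ.R →+* (ResidueField O)[ε]) hφl).residual.IsEquiv
      (ρbar.baseChangeAlong (ResidueField.map (algebraMap O (ResidueField O)[ε]))) :=
    ⟨e.residual.symm.trans e2⟩
  obtain ⟨ψ, -, huniq⟩ := DQ.universal (ResidueField O)[ε] hresA _
    (hst φ hφl (phi_surjective d.2 hne)) hres
  have h1 := huniq φ ⟨hφl, ⟨GaloisRepAdic.Equiv.refl _⟩⟩
  have h2 := huniq φ₀ ⟨hφ₀l, heq0⟩
  obtain ⟨x, hx⟩ := Function.ne_iff.1 hne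
  have h3 := congrArg (fun f : DQ.R →ₐ[O] (ResidueField O)[ε] => (f x).snd) (h1.trans h2.symm)
  simp [φ, φ₀, phi_apply] at h3
  exact hx h3

end FLTAgent.TWPrimes.Glue
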