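import Fermat.Agent.TWPrimes.Glue.Quotient
import Fermat.Agent.TWPrimes.Local.Flat
import Fermat.Agent.TWPrimes.Local.Ord
import Fermat.Agent.TWPrimes.Local.Unip
import Fermat.Agent.FlatLocal.OfHopf

/-!
# The local conditions on the cocycles of derivations
-/

set_option autoImplicit false
set_option linter.unusedSectionVars false
set_option linter.style.haveILetI false

noncomputable section

open IsLocalRing

namespace FLTAgent.TWPrimes.Glue

open FLTAgent.PoitouTate
open FLTAgent.Deformation (matOf matOf_apply)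

local notation "GG" => (AlgebraicClosure ℚ ≃ₐ[ℚ] AlgebraicClosure ℚ)
local notation "VS" => ValuationSubring (AlgebraicClosure ℚ)
local notation "Dec" => ValuationSubring.decompositionSubgroup ℚ
local notation "M2" => Matrix (Fin 2) (Fin 2)

variable {O : Type} [CommRing O] [IsLocalRing O] [Finite (ResidueField O)] {p : ℕ} [Fact p.Prime]
  [Algebra (ZMod p) (ResidueField O)] {D : Datum p (ResidueField O)}
  {R : Type} [CommRing R] [IsLocalRing R] [Algebra O R] {red : R →ₐ[O] ResidueField O}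
  {ρ : GaloisRepAdic R} (Fr : Frame D red ρ) (hdet : ρ.DetIsCyclotomic p)

/-- Restriction of the cocycle of a derivation. -/
def resC (V : VS) (d : ↥(tanSp red)) : ↥(Dec V) → W (ResidueField O) :=
  res1 (p := p) (Dec V).subtype (cL Fr hdet d)

theorem resC_mem (V : VS) (d : ↥(tanSp red)) :
    resC Fr hdet V d ∈ Z1 (ad D 0) (Dec V).subtype := by
  obtain ⟨F, hF, h⟩ := exists_level Fr hdet d
  exact ⟨⟨F, hF, fun g s hs => h g s hs⟩, fun g h' => cL_mul Fr hdet d g h'⟩

theorem resC_val (V : VS) (d : ↥(tanSp red)) (σ : ↥(Dec V)) :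
    (resC Fr hdet V d σ).1 * (D.rb (σ : GG) : M2 (ResidueField O)) =
      (matOf ρ Fr.b (σ : GG)).map d.1 :=
  cM_mul_rb Fr d.1 σ

include Fr in
theorem red_surjective : Function.Surjective red := fun y => by
  obtain ⟨o, ho⟩ := residue_surjective y
  exact ⟨algebraMap O R o, (red.commutes o).trans ho⟩

include Fr in
theorem red_repr_ne (b : Module.Basis (Fin 2) R ρ.V) :
    (fun i => red (Fr.b.repr (b 0) i)) ≠ 0 := by
  intro h
  have hm : b 0 ∈ maximalIdeal R • (⊤ : Submodule R ρ.V) :=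
    (mem_smul_top_iff_coords Fr.b _ _).2 fun i => (Fr.ker_red _).1 (congrFun h i)
  have h1 := (mem_smul_top_iff_coords b _ _).1 hm 0
  rw [b.repr_self, Finsupp.single_eq_same] at h1
  exact (mem_maximalIdeal _).1 h1 isUnit_one

/-- The strictly ordinary space at a place over `p`. -/
theorem exists_ordLoc (hord : ρ.IsStrictOrdinaryAt p) {V : VS} (hV : V.LiesOverPrime p) :
    ∃ L, IsLoc D V L ∧ Module.finrank (ZMod p) ↥L ≤ 4 * deg (p := p) (ResidueField O) ∧
      ∀ d, resC Fr hdet V d ∈ L := by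
  obtain ⟨Lp, ⟨b, hb⟩, -, -, hx⟩ := hord.2 V hV
  have hb0 : b 0 ∈ Lp := hb ▸ Submodule.mem_span_singleton_self _
  choose x z hxL hzL hcong using fun σ : ↥(Dec V) => hx (σ : GG) σ.2
  -- the diagonal of the matrix in the adapted basis
  have hdiag : ∀ σ : ↥(Dec V), LinearMap.det (ρ.ρ (σ : GG)) = x σ * z σ := fun σ => by
    rw [← LinearMap.det_toMatrix b, Matrix.det_fin_two]
    obtain ⟨t, ht⟩ := Submodule.mem_span_singleton.1 (hb ▸ hzL σ (b 1))
    have e1 : ρ.ρ (σ : GG) (b 1) = t • b 0 + z σ • b 1 := by rw [ht, sub_add_cancel]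
    simp [LinearMap.toMatrix_apply, hxL σ _ hb0, e1]
  have hxz : ∀ σ : ↥(Dec V), red (x σ) = (om p (σ : GG)).val * red (z σ) ∧
      red (x σ) * red (z σ) = ((om p (σ : GG)).val : ResidueField O) ∧
      ∀ d : ↥(tanSp red), d.1 (x σ) = (om p (σ : GG)).val * d.1 (z σ) ∧
        red (x σ) * d.1 (z σ) + red (z σ) * d.1 (x σ) = 0 := fun σ => by
    have h1 := hcong σ 1 _ fun μ hμ => apply_of_pow_eq_one (σ : GG) μ hμ
    have h2 := hdet.2 1 (σ : GG) _ fun μ hμ => apply_of_pow_eq_one (σ : GG) μ hμ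
    rw [hdiag σ] at h2
    rw [pow_one, Ideal.mem_span_singleton] at h1
    obtain ⟨u, hu⟩ := h1
    rw [eq_add_of_sub_eq hu]
    refine ⟨?_, ?_, fun d => ⟨?_, ?_⟩⟩
    · rw [map_add, map_mul, map_mul, map_natCast, map_natCast, natCast_p, zero_mul, zero_add]
    · have := (red_d_of_mem_span (Submodule.zero_mem (tanSp red)) h2).1
      rwa [map_mul, eq_add_of_sub_eq hu] at this
    · rw [d.2.1, d.2.2.1, d.2.2.1, d_natCast d.2, d_natCast d.2, map_natCast, map_natCast,
        natCast_p]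
      simp
    · have := (red_d_of_mem_span d.2 h2).2
      rwa [d.2.2.1, eq_add_of_sub_eq hu] at this
  have hom : ∀ σ : ↥(Dec V), ((om p (σ : GG)).val : ResidueField O) ≠ 0 := fun σ => by
    rw [natCast_val_om, map_ne_zero, PoitouTate.om]
    exact Units.ne_zero _
  have hsq : ∀ σ : ↥(Dec V), red (x σ) ^ 2 =
      algebraMap (ZMod p) (ResidueField O) (om p (σ : GG)) ^ 2 := fun σ => by
    obtain ⟨h1, h2, -⟩ := hxz σ
    rw [← natCast_val_om]
    linear_combination red (x σ) * h1 + ((om p (σ : GG)).val : ResidueField O) * h2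
  set v : Fin 2 → R := fun i => Fr.b.repr (b 0) i with hv
  have hvec : ∀ σ : ↥(Dec V), (matOf ρ Fr.b (σ : GG)).mulVec v = x σ • v := fun σ => by
    have h := equivFun_apply_rho ρ Fr.b (σ : GG) (b 0)
    rw [hxL σ _ hb0, map_smul] at h
    exact h.symm
  have hv0 : (fun i => red (v i)) ≠ 0 := red_repr_ne Fr b
  have hrv : ∀ σ : ↥(Dec V), (D.rb (σ : GG) : M2 (ResidueField O)).mulVec (fun i => red (v i)) =
      red (x σ) • fun i => red (v i) := fun σ => by
    rw [← Fr.red_eq]
    funext i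
    have h := congrArg red (congrFun (hvec σ) i)
    rw [Pi.smul_apply, smul_eq_mul, map_mul] at h
    rw [Pi.smul_apply, smul_eq_mul, ← h]
    exact (RingHom.map_mulVec (red : R →+* ResidueField O) _ v i).symm
  obtain ⟨L, hL, hLdim, hLmem⟩ := targetOrd p (ResidueField O) D V hV (fun i => red (v i))
    (fun σ => red (x σ)) hv0 fun σ => ⟨hrv σ, hsq σ⟩
  refine ⟨L, hL, hLdim, fun d => hLmem _ (resC_mem Fr hdet V d) ⟨fun i => d.1 (v i), fun σ => ?_⟩⟩
  have hdx : d.1 (x σ) = 0 := by
    obtain ⟨h1, -, h⟩ := hxz σ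
    obtain ⟨h3, h4⟩ := h d
    have h2 : (2 : ResidueField O) ≠ 0 := Local.two_ne_zero_coeff D.ne_two _
    have hz : red (z σ) ≠ 0 := fun e => hom σ (by rw [← (hxz σ).2.1, e, mul_zero])
    have : (2 : ResidueField O) * red (z σ) * d.1 (x σ) = 0 := by
      linear_combination h4 + red (z σ) * h3 - d.1 (z σ) * h1
    exact (mul_eq_zero.1 this).resolve_left (mul_ne_zero h2 hz)
  rw [Matrix.mulVec_mulVec, resC_val]
  have h := congrArg (fun w : Fin 2 → R => fun i => d.1 (w i)) (hvec σ)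
  simp only [d_mulVec d.2, Fr.red_eq] at h
  rw [add_comm, h]
  funext i
  show d.1 (x σ * v i) = red (x σ) * d.1 (v i)
  rw [d.2.2.1, hdx, mul_zero, add_zero]

include Fr in
theorem flatI_residual (hflat : ρ.IsFlatAt p) {V : VS} (hV : V.LiesOverPrime p) :
    FlatLocal.FlatI V (actR D V) := by
  have hker : RingHom.ker (red : R →+* ResidueField O) = maximalIdeal R :=
    Ideal.ext fun x => Fr.ker_red x
  haveI : Finite (R ⧸ maximalIdeal R) := by
    rw [← hker]
    exact Finite.of_injective _ (RingHom.kerLift_injective (red : R →+* ResidueField O))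
  let g : ρ.V →+ (Fin 2 → ResidueField O) :=
    AddMonoidHom.mk' (fun v i => red (Fr.b.repr v i)) fun a b => funext fun i => by simp
  have hg : Function.Surjective g := fun w => by
    choose u hu using fun i => red_surjective Fr (w i)
    exact ⟨Fr.b.equivFun.symm u, funext fun i => by
      show red (Fr.b.repr _ i) = w i
      rw [← Module.Basis.equivFun_apply, LinearEquiv.apply_symm_apply, hu]⟩
  have hgk : ∀ v, g v = 0 ↔ v ∈ maximalIdeal R • (⊤ : Submodule R ρ.V) := fun v => by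
    rw [mem_smul_top_iff_coords Fr.b]
    refine ⟨fun h i => (Fr.ker_red _).1 (congrFun h i), fun h => funext fun i => ?_⟩
    exact (Fr.ker_red _).2 (h i)
  obtain ⟨el, hel⟩ := exists_levelEquiv ρ _ g hg hgk
  haveI := Finite.of_equiv _ el.toEquiv.symm
  refine (FlatLocal.FlatI.of_isFlatAt hV hflat (maximalIdeal R)).congr el.symm fun σ _ w => ?_
  obtain ⟨v, rfl⟩ := hg w
  rw [← hel, AddEquiv.symm_apply_apply]
  show el.symm _ = Submodule.Quotient.mk (ρ.ρ (σ : GG) v)
  rw [AddEquiv.symm_apply_eq, hel, hel]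
  show (D.rb (σ : GG) : M2 (ResidueField O)).mulVec (fun i => red (Fr.b.repr v i)) =
    fun i => red (Fr.b.repr (ρ.ρ (σ : GG) v) i)
  have h := equivFun_apply_rho ρ Fr.b (σ : GG) v
  simp only [Module.Basis.equivFun_apply] at h
  funext i
  rw [h, ← Fr.red_eq]
  exact (RingHom.map_mulVec (red : R →+* ResidueField O) _ _ i).symm

theorem exists_red_and_d (d : ↥(tanSp red)) (hne : d.1 ≠ 0) (a b : ResidueField O) :
    ∃ x, red x = a ∧ d.1 x = b := by
  obtain ⟨x, hx⟩ := Function.ne_iff.1 hne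
  obtain ⟨o, ho⟩ := residue_surjective (red x)
  set x' := x - algebraMap O R o
  have hx1 : red x' = 0 := by
    rw [map_sub, AlgHom.commutes]
    exact sub_eq_zero.2 ho.symm
  have hx2 : d.1 x' = d.1 x := by rw [d_sub d.2, d.2.2.2, sub_zero]
  obtain ⟨oa, hoa⟩ := residue_surjective a
  obtain ⟨oc, hoc⟩ := residue_surjective (b / d.1 x)
  refine ⟨algebraMap O R oa + algebraMap O R oc * x', ?_, ?_⟩
  · rw [map_add, map_mul, hx1, mul_zero, add_zero, AlgHom.commutes]
    exact hoa
  · rw [d.2.1, d.2.2.1, d.2.2.2, d.2.2.2, hx1, zero_mul, add_zero, zero_add, hx2, AlgHom.commutes]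
    show residue O oc * d.1 x = b
    rw [hoc, div_mul_cancel₀]
    exact hx

theorem flatI_actC (hflat : ρ.IsFlatAt p) {V : VS} (hV : V.LiesOverPrime p) (d : ↥(tanSp red))
    (hne : d.1 ≠ 0) : FlatLocal.FlatI V (actC D V (resC Fr hdet V d)) := by
  classical
  let I : Ideal R :=
    { carrier := {x | red x = 0 ∧ d.1 x = 0}
      zero_mem' := ⟨map_zero red, d_zero d.2⟩
      add_mem' := fun {a b} ha hb => ⟨by rw [map_add, ha.1, hb.1, add_zero],
        by rw [d.2.1, ha.2, hb.2, add_zero]⟩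
      smul_mem' := fun c a ha => ⟨by rw [smul_eq_mul, map_mul, ha.1, mul_zero],
        by rw [smul_eq_mul, d.2.2.1, ha.1, ha.2, mul_zero, zero_mul, add_zero]⟩ }
  let pr : R → ResidueField O × ResidueField O := fun x => (red x, d.1 x)
  haveI : Finite (R ⧸ I) := by
    refine Finite.of_injective (fun q : R ⧸ I => pr (Quotient.out q)) fun a b h => ?_
    rw [← Quotient.out_eq a, ← Quotient.out_eq b]
    refine Ideal.Quotient.eq.2 ⟨?_, ?_⟩
    · rw [map_sub, sub_eq_zero]
      exact congrArg Prod.fst h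
    · rw [d_sub d.2, sub_eq_zero]
      exact congrArg Prod.snd h
  let g : ρ.V →+ (Fin 2 → ResidueField O) × (Fin 2 → ResidueField O) :=
    AddMonoidHom.mk' (fun v => (fun i => red (Fr.b.repr v i), fun i => d.1 (Fr.b.repr v i)))
      fun a b => Prod.ext (funext fun i => by simp) (funext fun i => by simp [d.2.1])
  have hg : Function.Surjective g := fun w => by
    choose u hu using fun i => exists_red_and_d d hne (w.1 i) (w.2 i)
    refine ⟨Fr.b.equivFun.symm u, Prod.ext (funext fun i => ?_) (funext fun i => ?_)⟩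
    · show red (Fr.b.repr _ i) = w.1 i
      rw [← Module.Basis.equivFun_apply, LinearEquiv.apply_symm_apply, (hu i).1]
    · show d.1 (Fr.b.repr _ i) = w.2 i
      rw [← Module.Basis.equivFun_apply, LinearEquiv.apply_symm_apply, (hu i).2]
  have hgk : ∀ v, g v = 0 ↔ v ∈ I • (⊤ : Submodule R ρ.V) := fun v => by
    rw [mem_smul_top_iff_coords Fr.b]
    refine ⟨fun h i => ⟨congrFun (congrArg Prod.fst h) i, congrFun (congrArg Prod.snd h) i⟩,
      fun h => Prod.ext (funext fun i => (h i).1) (funext fun i => (h i).2)⟩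
  obtain ⟨el, hel⟩ := exists_levelEquiv ρ I g hg hgk
  haveI := Finite.of_equiv _ el.toEquiv.symm
  refine (FlatLocal.FlatI.of_isFlatAt hV hflat I).congr el.symm fun σ _ w => ?_
  obtain ⟨v, rfl⟩ := hg w
  rw [← hel, AddEquiv.symm_apply_apply]
  show el.symm _ = Submodule.Quotient.mk (ρ.ρ (σ : GG) v)
  rw [AddEquiv.symm_apply_eq, hel, hel]
  have h := equivFun_apply_rho ρ Fr.b (σ : GG) v
  simp only [Module.Basis.equivFun_apply] at h
  refine Prod.ext (funext fun i => ?_) (funext fun i => ?_)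
  · show ((D.rb (σ : GG) : M2 (ResidueField O)).mulVec fun i => red (Fr.b.repr v i)) i =
      red (Fr.b.repr (ρ.ρ (σ : GG) v) i)
    rw [h, ← Fr.red_eq]
    exact (RingHom.map_mulVec (red : R →+* ResidueField O) _ _ i).symm
  · show ((D.rb (σ : GG) : M2 (ResidueField O)).mulVec (fun i => d.1 (Fr.b.repr v i)) +
        ((resC Fr hdet V d σ).1 * (D.rb (σ : GG) : M2 (ResidueField O))).mulVec
          fun i => red (Fr.b.repr v i)) i = d.1 (Fr.b.repr (ρ.ρ (σ : GG) v) i)
    rw [h, resC_val]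
    have h2 := congrFun (d_mulVec d.2 (matOf ρ Fr.b (σ : GG)) fun i => Fr.b.repr v i) i
    rw [Fr.red_eq] at h2
    exact h2.symm

/-- The flat space at a place over `p`. -/
theorem exists_flatLoc (hflat : ρ.IsFlatAt p) {V : VS} (hV : V.LiesOverPrime p) :
    ∃ L, IsLoc D V L ∧ Module.finrank (ZMod p) ↥L ≤ 4 * deg (p := p) (ResidueField O) ∧
      ∀ d, resC Fr hdet V d ∈ L := by
  obtain ⟨L, hL, hdim, hmem⟩ := targetFlat p (ResidueField O) D V hV
    (flatI_residual Fr hflat hV)
  refine ⟨L, hL, hdim, fun d => ?_⟩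
  by_cases hne : d.1 = 0
  · have h0 : d = 0 := Subtype.ext hne
    have : resC Fr hdet V d = 0 := by rw [h0, resC, map_zero, map_zero]
    rw [this]
    exact L.zero_mem
  · exact hmem _ (resC_mem Fr hdet V d) (flatI_actC Fr hdet hflat hV d hne)

/-- The space at a ramified prime with unipotent inertia. -/
theorem exists_unipLoc {q : Nat.Primes} (hqp : (q : ℕ) ≠ p)
    (hu : ρ.IsUnipotentOnInertiaAt (q : ℕ)) {V : VS} (hV : V.LiesOverPrime (q : ℕ))
    (hram : ∃ σ ∈ V.inertiaSubgroupIn ℚ, D.rb σ ≠ 1) :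
    ∃ L, IsLoc D V L ∧ Module.finrank (ZMod p) ↥L ≤ 3 * deg (p := p) (ResidueField O) ∧
      ∀ d, resC Fr hdet V d ∈ L := by
  have key : ∀ σ ∈ V.inertiaSubgroupIn ℚ, Matrix.trace (matOf ρ Fr.b σ) = 2 ∧
      (matOf ρ Fr.b σ).det = 1 := fun σ hσ => by
    have h := hu V hV σ hσ
    rw [← LinearMap.charpoly_toMatrix (ρ.ρ σ) Fr.b] at h
    change (matOf ρ Fr.b σ).charpoly = _ at h
    rw [Matrix.charpoly_fin_two] at h
    have e : ((Polynomial.X - 1) ^ 2 : Polynomial R) =
        Polynomial.X ^ 2 - Polynomial.C 2 * Polynomial.X + Polynomial.C 1 := by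
      rw [Polynomial.C_1, map_ofNat]
      ring
    rw [e] at h
    have h1 := congrArg (fun P : Polynomial R => P.coeff 1) h
    have h0 := congrArg (fun P : Polynomial R => P.coeff 0) h
    simp [Polynomial.coeff_one, Polynomial.coeff_X] at h1 h0
    exact ⟨h1, h0⟩
  have hub : ∀ σ ∈ V.inertiaSubgroupIn ℚ,
      ((D.rb σ : M2 (ResidueField O)) - 1) ^ 2 = 0 := fun σ hσ => by
    obtain ⟨h1, h2⟩ := key σ hσ
    have hc := Matrix.aeval_self_charpoly (D.rb σ : M2 (ResidueField O))
    have e1 : Matrix.trace (D.rb σ : M2 (ResidueField O)) = 2 := by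
      rw [← Fr.red_eq]
      refine ((AddMonoidHom.map_trace (red : R →+* ResidueField O).toAddMonoidHom _).symm).trans ?_
      show red (Matrix.trace (matOf ρ Fr.b σ)) = 2
      rw [h1, map_ofNat]
    have e2 : Matrix.det (D.rb σ : M2 (ResidueField O)) = 1 := by
      rw [← Fr.red_eq]
      exact (RingHom.map_det (red : R →+* ResidueField O) _).symm.trans (by rw [h2, map_one])
    rw [Matrix.charpoly_fin_two, e1, e2] at hc
    simp [Algebra.algebraMap_eq_smul_one] at hc
    rw [← hc, sq, sq]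
    simp [sub_mul, mul_sub, two_mul, two_smul]
    abel
  obtain ⟨L, hL, hdim, hmem⟩ := targetUnip p (ResidueField O) D q V hqp hV hram hub
  refine ⟨L, hL, hdim, fun d => hmem _ (resC_mem Fr hdet V d) fun σ hσ => ?_⟩
  rw [resC_val]
  have h := congrArg d.1 (key (σ : GG) hσ).1
  rw [Matrix.trace_fin_two, d.2.1] at h
  rw [Matrix.trace_fin_two, Matrix.map_apply, Matrix.map_apply, h]
  exact_mod_cast d_natCast d.2 2

end FLTAgent.TWPrimes.Glue
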