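import Fermat.Agent.TWPrimes.Glue.Targets
import Fermat.Agent.TWPrimes.Glue.Local
import Fermat.Agent.TWPrimes.Glue.Injective
import Fermat.Agent.TWPrimes.Main
import Fermat.Agent.TWPrimes.Local.Flat
import Fermat.Agent.TWPrimes.Local.Ord
import Fermat.Agent.TWPrimes.Local.Unip
import Fermat.Agent.Frobenius.Exists

/-!
# The bound for the tangent spaces of the deformation rings with auxiliary primes
-/

set_option autoImplicit false
set_option linter.style.haveILetI false
set_option linter.unusedSectionVars false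

noncomputable section

open IsLocalRing
open scoped Pointwise

namespace FLTAgent.TWPrimes.Glue

open FLTAgent.PoitouTate FLTAgent.Deformation

local notation "GG" => (AlgebraicClosure ℚ ≃ₐ[ℚ] AlgebraicClosure ℚ)
local notation "VS" => ValuationSubring (AlgebraicClosure ℚ)
local notation "idG" => MonoidHom.id (AlgebraicClosure ℚ ≃ₐ[ℚ] AlgebraicClosure ℚ)
local notation "Dec" => ValuationSubring.decompositionSubgroup ℚ
local notation "pP" => ExtCitation.pPrime
local notation "Mt" => Matrix (Fin 2) (Fin 2)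

variable {O : Type} [CommRing O] [IsDomain O] [IsDiscreteValuationRing O]
  [IsAdicComplete (maximalIdeal O) O] [Finite (ResidueField O)] {p : ℕ} [Fact p.Prime]
  [Algebra (ZMod p) (ResidueField O)] {D : Datum p (ResidueField O)}
  {ρbar : ResidualGaloisRep (ResidueField O)}

theorem exists_inertia_ne_one (b : Module.Basis (Fin 2) (ResidueField O) ρbar.V)
    (hb : ∀ σ, (D.rb σ : Mt (ResidueField O)) = LinearMap.toMatrix b b (ρbar.ρ σ))
    {q : ℕ} (hq : q.Prime) (h : ¬ ρbar.IsUnramifiedAt q) {V : VS} (hV : V.LiesOverPrime q) :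
    ∃ σ ∈ V.inertiaSubgroupIn ℚ, D.rb σ ≠ 1 := by
  simp only [ResidualGaloisRep.IsUnramifiedAt, not_forall] at h
  obtain ⟨P, hP, σ, hσ, hne⟩ := h
  obtain ⟨g, rfl⟩ := Places.exists_smul_eq hq hP hV
  refine ⟨g * σ * g⁻¹, Places.conj_mem_inertia P hσ g, fun h1 => hne ?_⟩
  have h2 : D.rb σ = 1 := by
    rw [map_mul, map_mul, map_inv, mul_inv_eq_one, mul_eq_left] at h1
    exact h1
  refine (LinearMap.toMatrix b b).injective ?_
  rw [← hb, h2, Units.val_one, LinearMap.toMatrix_one]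

theorem red_eq_zero_iff {R : Type} [CommRing R] [IsLocalRing R] [Algebra O R]
    (red : R →ₐ[O] ResidueField O) (x : R) : red x = 0 ↔ x ∈ maximalIdeal R := by
  have hs : Function.Surjective red := fun y => by
    obtain ⟨a, rfl⟩ := residue_surjective y
    exact ⟨algebraMap O R a, red.commutes a⟩
  rw [← eq_maximalIdeal (RingHom.ker_isMaximal_of_surjective red hs), RingHom.mem_ker]

theorem d0_mem_Z1S (A : W (ResidueField O)) {S : Finset Nat.Primes} (hS : D.bad ⊆ S) :
    d0 (ad D 0) idG A ∈ Z1S (ad D 0) idG S :=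
  mem_Z1S_of_inertia (smooth_ad D 0) (B1_le_Z1 (smooth_ad D 0) ⟨A, rfl⟩) fun q hq V hV σ hσ => by
    have h := ad_of_inertia D 0 (fun h' => hq (hS h')) hV hσ
    refine ⟨h, ?_⟩
    rw [d0_apply, MonoidHom.id_apply, h, LinearMap.id_apply, sub_self]

/-- The count, from the local space at `p`. -/
theorem finrank_tanSp_le (b : Module.Basis (Fin 2) (ResidueField O) ρbar.V)
    (hb : ∀ σ, (D.rb σ : Mt (ResidueField O)) = LinearMap.toMatrix b b (ρbar.ρ σ))
    {Smin : Finset ℕ} (hbad : ∀ q : Nat.Primes, q ∈ D.bad ↔ (q : ℕ) ∈ Smin)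
    (hram : ∀ q ∈ Smin, q ≠ p → ¬ ρbar.IsUnramifiedAt q) {r : ℕ} {Q : Finset Nat.Primes}
    (hbound : ∀ (V : Nat.Primes → VS), (∀ q, (V q).LiesOverPrime (q : ℕ)) →
      ∀ Zloc : ∀ q : Nat.Primes, Submodule (ZMod p) (↥(Dec (V q)) → W (ResidueField O)),
        (∀ q ∈ D.bad, IsLoc D (V q) (Zloc q)) →
      ∀ Z : Submodule (ZMod p) (GG → W (ResidueField O)),
        Z ≤ Z1S (ad D 0) idG (D.bad ∪ Q) →
        (∀ z ∈ Z, ∀ q ∈ D.bad, res1 (p := p) (Dec (V q)).subtype z ∈ Zloc q) →
        FiniteDimensional (ZMod p) ↥Z ∧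
          (Module.finrank (ZMod p) ↥Z : ℤ) ≤ deg (p := p) (ResidueField O) * (2 + r) +
            ∑ q ∈ D.bad,
              ((Module.finrank (ZMod p) ↥(Zloc q) : ℤ) - 3 * deg (p := p) (ResidueField O)))
    {𝒟 : ∀ ⦃A : Type⦄ [CommRing A] [IsLocalRing A] [Algebra O A], GaloisRepAdic A → Prop}
    (DQ : GaloisRep.DeformationRingData O ρbar 𝒟) (hdet : DQ.ρ.DetIsCyclotomic p)
    (hun : ∀ q : ℕ, q.Prime → q ∉ Smin ∪ Q.image (fun q : Nat.Primes => (q : ℕ)) →
      DQ.ρ.IsUnramifiedAt q)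
    (huni : ∀ q ∈ Smin, q.Prime → q ≠ p → DQ.ρ.IsUnipotentOnInertiaAt q)
    (hstab : StableDual DQ) (red : DQ.R →ₐ[O] ResidueField O)
    (hloc : ∀ (Fr : Frame D red DQ.ρ) (V : VS), V.LiesOverPrime p →
      ∃ Zp, IsLoc D V Zp ∧ Module.finrank (ZMod p) ↥Zp ≤ 4 * deg (p := p) (ResidueField O) ∧
        ∀ d, resC Fr hdet V d ∈ Zp) :
    FiniteDimensional (ResidueField O) ↥(tanSp red) ∧
      Module.finrank (ResidueField O) ↥(tanSp red) ≤ r := by
  classical
  obtain ⟨Fr⟩ := exists_frame ρbar b hb (red_eq_zero_iff red) DQ.residual_isEquiv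
  choose V hV using fun q : Nat.Primes => Frobenius.exists_liesOverPrime (q : ℕ) q.2
  have hall : ∀ q : Nat.Primes,
      ∃ Zq : Submodule (ZMod p) (↥(Dec (V q)) → W (ResidueField O)), q ∈ D.bad →
      IsLoc D (V q) Zq ∧ (∀ d, resC Fr hdet (V q) d ∈ Zq) ∧
        Module.finrank (ZMod p) ↥Zq ≤
          3 * deg (p := p) (ResidueField O) +
            (if q = pP p then deg (p := p) (ResidueField O) else 0) := by
    intro q
    by_cases hq : q ∈ D.bad
    swap
    · exact ⟨⊥, fun h => absurd h hq⟩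
    by_cases hqp : q = pP p
    · subst hqp
      obtain ⟨Zp, h1, h2, h3⟩ := hloc Fr (V (pP p)) (hV (pP p))
      exact ⟨Zp, fun _ => ⟨h1, h3, h2.trans (by rw [if_pos rfl]; omega)⟩⟩
    have hne : (q : ℕ) ≠ p := fun h => hqp (Subtype.ext h)
    obtain ⟨Zq, h1, h2, h3⟩ := exists_unipLoc Fr hdet hne (huni _ ((hbad q).1 hq) q.2 hne) (hV q)
      (exists_inertia_ne_one b hb q.2 (hram _ ((hbad q).1 hq) hne) (hV q))
    exact ⟨Zq, fun _ => ⟨h1, h3, h2.trans (Nat.le_add_right _ _)⟩⟩
  choose Zloc hZloc using hall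
  let Φ : (↥(tanSp red) × W (ResidueField O)) →ₗ[ZMod p] (GG → W (ResidueField O)) :=
    ((cL Fr hdet).restrictScalars (ZMod p)).coprod (d0 (ad D 0) idG)
  have hΦ : ∀ d A, Φ (d, A) = cL Fr hdet d + d0 (ad D 0) idG A := fun d A => rfl
  have hinj : Function.Injective Φ := by
    rw [← LinearMap.ker_eq_bot, LinearMap.ker_eq_bot']
    rintro ⟨d, A⟩ h
    rw [hΦ] at h
    have hd : d = 0 := eq_zero_of_cob DQ hstab Fr hdet d ⟨-A, by
      rw [map_neg]; exact (eq_neg_of_add_eq_zero_left h).symm⟩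
    subst hd
    rw [map_zero, zero_add] at h
    have hA : A ∈ inv (ad D 0) ⊤ := mem_inv.2 fun g _ => by
      have := congrFun h g
      rwa [d0_apply, MonoidHom.id_apply, Pi.zero_apply, sub_eq_zero] at this
    rw [inv_ad_top, Submodule.mem_bot] at hA
    rw [hA]
    rfl
  obtain ⟨hfin, hle⟩ := hbound V hV Zloc (fun q hq => (hZloc q hq).1) (LinearMap.range Φ)
    (by
      rintro _ ⟨⟨d, A⟩, rfl⟩
      refine add_mem (cL_mem_Z1S Fr hdet d fun q hq => ?_) (d0_mem_Z1S A Finset.subset_union_left)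
      rw [Finset.mem_union, not_or] at hq
      refine hun _ q.2 fun h => ?_
      rcases Finset.mem_union.1 h with h | h
      · exact hq.1 ((hbad q).2 h)
      · obtain ⟨q', hq', e⟩ := Finset.mem_image.1 h
        exact hq.2 ((Subtype.ext e : q' = q) ▸ hq'))
    (by
      rintro _ ⟨⟨d, A⟩, rfl⟩ q hq
      rw [hΦ, map_add]
      refine add_mem ((hZloc q hq).2.1 d) ((hZloc q hq).1.2.1 ?_)
      exact ⟨A, rfl⟩)
  haveI := hfin
  haveI : FiniteDimensional (ZMod p) (↥(tanSp red) × W (ResidueField O)) :=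
    Module.Finite.equiv (LinearEquiv.ofInjective Φ hinj).symm
  haveI : Module.Finite (ZMod p) ↥(tanSp red) :=
    Module.Finite.of_surjective (LinearMap.fst (ZMod p) ↥(tanSp red) (W (ResidueField O)))
      LinearMap.fst_surjective
  haveI : FiniteDimensional (ResidueField O) ↥(tanSp red) :=
    Module.Finite.of_restrictScalars_finite (ZMod p) _ _
  refine ⟨inferInstance, ?_⟩
  rw [LinearMap.finrank_range_of_inj hinj, Module.finrank_prod, finrank_adW,
    ← Module.finrank_mul_finrank (ZMod p) (ResidueField O) ↥(tanSp red)] at hle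
  have hsum : ∑ q ∈ D.bad,
      ((Module.finrank (ZMod p) ↥(Zloc q) : ℤ) - 3 * deg (p := p) (ResidueField O)) ≤
      deg (p := p) (ResidueField O) := by
    refine (Finset.sum_le_sum
      (g := fun q => if q = pP p then (deg (p := p) (ResidueField O) : ℤ) else 0)
      fun q hq => ?_).trans (by rw [Finset.sum_ite_eq' D.bad, if_pos D.p_mem])
    have h := (hZloc q hq).2.2
    split_ifs with h' <;> simp only [h', if_true, if_false] at h <;> omega
  have hdeg : 0 < deg (p := p) (ResidueField O) := Module.finrank_pos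
  have h' := hle.trans (add_le_add le_rfl hsum)
  push_cast at h'
  nlinarith

end FLTAgent.TWPrimes.Glue

namespace FLTAgent.TWPrimes

open FLTAgent.PoitouTate FLTAgent.TWPrimes.Glue
open scoped DualNumber

/-- The tangent spaces are bounded by the number of auxiliary primes. -/
theorem targetTanBound : TargetTanBound := by
  intro O _ _ _ _ _ p _ _ hp2 ρbar D b hb Smin hbad hSp hram
  obtain ⟨r, hr⟩ := targetTWBound_all p (ResidueField O) D D.bad subset_rfl
  refine ⟨r, fun n avoid => ?_⟩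
  obtain ⟨Q, hcard, hQ, hbound⟩ := hr n avoid
  refine ⟨Q, hcard, fun q hq => ⟨(hQ q hq).1, (hQ q hq).2.2⟩, fun DQ red => ?_, fun DQ red => ?_⟩
  · obtain ⟨h, huni⟩ := DQ.isOfType
    refine finrank_tanSp_le b hb hbad hram hbound DQ h.1 h.2.2 huni (fun ψ hψ _ => ?_) red
      fun Fr V hV => exists_ordLoc Fr h.1 h.2.1 hV
    exact ⟨strictOrdinaryCondition_baseChange _ hψ h,
      fun q hq hqp hne => isUnipotentOnInertiaAt_baseChange _ hψ (huni q hq hqp hne)⟩
  · obtain ⟨h, huni⟩ := DQ.isOfType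
    refine finrank_tanSp_le b hb hbad hram hbound DQ h.1 h.2.2 huni (fun ψ hψ hs => ?_) red
      fun Fr V hV => exists_flatLoc Fr h.1 h.2.1 hV
    haveI : Finite (ResidueField (ResidueField O)[ε]) :=
      Finite.of_surjective _ residue_surjective
    exact ⟨flatCondition_baseChange _ hψ hs h,
      fun q hq hqp hne => isUnipotentOnInertiaAt_baseChange _ hψ (huni q hq hqp hne)⟩

end FLTAgent.TWPrimes
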