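import Fermat.Agent.TWPrimes.Glue.Cocycle
import Fermat.Prelude.Def_GaloisRep_StrictOrdinary
import Fermat.Prelude.Def_GaloisRep_Flat
import Mathlib.RingTheory.DualNumber

/-!
# Deformation conditions along surjections, and dual numbers
-/

set_option autoImplicit false
set_option linter.unusedSectionVars false
set_option linter.style.haveILetI false

noncomputable section

open IsLocalRing
open scoped TensorProduct DualNumber

namespace FLTAgent.TWPrimes.Glue

local notation "GG" => (AlgebraicClosure ℚ ≃ₐ[ℚ] AlgebraicClosure ℚ)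
local notation "M2" => Matrix (Fin 2) (Fin 2)

open FLTAgent.Deformation (matOf matOf_apply)

section General

variable {R : Type} [CommRing R] [IsLocalRing R]

theorem mem_smul_top_iff_coords {V : Type} [AddCommGroup V] [Module R V]
    (b : Module.Basis (Fin 2) R V) (I : Ideal R) (v : V) :
    v ∈ I • (⊤ : Submodule R V) ↔ ∀ i, b.repr v i ∈ I := by
  constructor
  · intro hv i
    refine Submodule.smul_induction_on (p := fun x => b.repr x i ∈ I) hv (fun a ha w _ => ?_)
      fun x y hx hy => ?_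
    · rw [map_smul, Finsupp.smul_apply, smul_eq_mul]
      exact I.mul_mem_right _ ha
    · rw [map_add, Finsupp.add_apply]
      exact add_mem hx hy
  · intro h
    rw [← b.sum_repr v]
    exact Submodule.sum_mem _ fun i _ => Submodule.smul_mem_smul (h i) Submodule.mem_top

/-- The coordinates of a translate. -/
theorem equivFun_apply_rho (ρ : GaloisRepAdic R) (b : Module.Basis (Fin 2) R ρ.V) (σ : GG)
    (v : ρ.V) : b.equivFun (ρ.ρ σ v) = (matOf ρ b σ).mulVec (b.equivFun v) := by
  simp only [Module.Basis.equivFun_apply]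
  exact (LinearMap.toMatrix_mulVec_repr b b (ρ.ρ σ) v).symm

/-- A surjection with kernel `I • V` identifies the quotient. -/
theorem exists_levelEquiv (ρ : GaloisRepAdic R) (I : Ideal R) {W : Type} [AddCommGroup W]
    (g : ρ.V →+ W) (hg : Function.Surjective g)
    (hker : ∀ v, g v = 0 ↔ v ∈ I • (⊤ : Submodule R ρ.V)) :
    ∃ e : (ρ.V ⧸ (I • (⊤ : Submodule R ρ.V))) ≃+ W, ∀ v, e (Submodule.Quotient.mk v) = g v := by
  set N : AddSubgroup ρ.V := (I • (⊤ : Submodule R ρ.V)).toAddSubgroup
  have hle : N ≤ g.ker := fun v hv => (hker v).2 hv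
  set h : ρ.V ⧸ N →+ W := QuotientAddGroup.lift N g hle
  have hinj : Function.Injective h := by
    refine (injective_iff_map_eq_zero h).2 fun x hx => ?_
    obtain ⟨v, rfl⟩ := QuotientAddGroup.mk_surjective x
    exact (QuotientAddGroup.eq_zero_iff v).2 ((hker v).1 hx)
  have hsurj : Function.Surjective h := fun w => by
    obtain ⟨v, rfl⟩ := hg w
    exact ⟨QuotientAddGroup.mk v, rfl⟩
  exact ⟨AddEquiv.ofBijective h ⟨hinj, hsurj⟩, fun v => rfl⟩

variable {B : Type} [CommRing B] [IsLocalRing B] (φ : R →+* B) (hφ : IsLocalHom φ)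
  {p : ℕ} {ρ : GaloisRepAdic R}

theorem detIsCyclotomic_baseChange (h : ρ.DetIsCyclotomic p) :
    (ρ.baseChangeAlong φ hφ).DetIsCyclotomic p := by
  letI : Algebra R B := φ.toAlgebra
  refine ⟨?_, fun n σ a ha => ?_⟩
  · have h1 := haveI := hφ; map_nonunit φ _ h.1
    rwa [map_natCast] at h1
  · have h1 := h.2 n σ a ha
    rw [Ideal.mem_span_singleton] at h1 ⊢
    have h2 := map_dvd φ h1
    rw [map_natCast, map_sub, map_natCast] at h2
    have h3 : LinearMap.det ((ρ.baseChangeAlong φ hφ).ρ σ) = φ (LinearMap.det (ρ.ρ σ)) :=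
      LinearMap.det_baseChange (ρ.ρ σ)
    rwa [h3]

theorem isUnramifiedAt_baseChange {q : ℕ} (h : ρ.IsUnramifiedAt q) :
    (ρ.baseChangeAlong φ hφ).IsUnramifiedAt q := fun P hP σ hσ => by
  letI : Algebra R B := φ.toAlgebra
  show (ρ.ρ σ).baseChange B = 1
  rw [h P hP σ hσ, LinearMap.baseChange_one]

theorem isUnipotentOnInertiaAt_baseChange {q : ℕ} (h : ρ.IsUnipotentOnInertiaAt q) :
    (ρ.baseChangeAlong φ hφ).IsUnipotentOnInertiaAt q := fun P hP σ hσ => by
  rw [Deformation.charpoly_baseChangeAlong, h P hP σ hσ]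
  simp

theorem isStrictOrdinaryAt_baseChange (h : ρ.IsStrictOrdinaryAt p) :
    (ρ.baseChangeAlong φ hφ).IsStrictOrdinaryAt p := by
  letI : Algebra R B := φ.toAlgebra
  refine ⟨?_, fun P hP => ?_⟩
  · have h1 := haveI := hφ; map_nonunit φ _ h.1
    rwa [map_natCast] at h1
  obtain ⟨L, ⟨b, hb⟩, hD, hI, hx⟩ := h.2 P hP
  set b' : Module.Basis (Fin 2) B (B ⊗[R] ρ.V) := Algebra.TensorProduct.basis B b with hb'
  have hmem : ∀ (c : B) (l : ρ.V), l ∈ L → c ⊗ₜ[R] l ∈ Submodule.span B {b' 0} := by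
    intro c l hl
    rw [hb] at hl
    obtain ⟨r, rfl⟩ := Submodule.mem_span_singleton.1 hl
    refine Submodule.mem_span_singleton.2 ⟨r • c, ?_⟩
    rw [hb', Algebra.TensorProduct.basis_apply, TensorProduct.smul_tmul', smul_eq_mul, mul_one,
      TensorProduct.smul_tmul]
  have hinI : ∀ σ ∈ P.inertiaSubgroupIn ℚ, ∀ v : B ⊗[R] ρ.V,
      (ρ.ρ σ).baseChange B v - v ∈ Submodule.span B {b' 0} := by
    intro σ hσ v
    induction v using TensorProduct.induction_on with
    | zero => simp
    | tmul c v =>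
      rw [LinearMap.baseChange_tmul, ← TensorProduct.tmul_sub]
      exact hmem c _ (hI σ hσ v)
    | add x y hx hy =>
      rw [map_add, add_sub_add_comm]
      exact add_mem hx hy
  refine ⟨Submodule.span B {b' 0}, ⟨b', rfl⟩, fun σ hσ v hv => ?_, hinI, fun σ hσ => ?_⟩
  · obtain ⟨r, rfl⟩ := Submodule.mem_span_singleton.1 hv
    show (ρ.ρ σ).baseChange B (r • b' 0) ∈ Submodule.span B {b' 0}
    rw [LinearMap.map_smul]
    refine Submodule.smul_mem _ r ?_
    rw [show b' 0 = (1 : B) ⊗ₜ[R] b 0 from Algebra.TensorProduct.basis_apply b 0,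
      LinearMap.baseChange_tmul]
    rw [← show b' 0 = (1 : B) ⊗ₜ[R] b 0 from Algebra.TensorProduct.basis_apply b 0]
    exact hmem 1 _ (hD σ hσ _ (hb ▸ Submodule.mem_span_singleton_self _))
  · obtain ⟨x, z, hxL, hzL, hcong⟩ := hx σ hσ
    refine ⟨φ x, φ z, fun w hw => ?_, fun v => ?_, fun n a ha => ?_⟩
    · obtain ⟨r, rfl⟩ := Submodule.mem_span_singleton.1 hw
      show (ρ.ρ σ).baseChange B (r • b' 0) = φ x • (r • b' 0)
      rw [LinearMap.map_smul, smul_comm (φ x) r]
      congr 1
      show (ρ.ρ σ).baseChange B (b' 0) = φ x • b' 0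
      rw [hb', Algebra.TensorProduct.basis_apply, LinearMap.baseChange_tmul,
        hxL _ (hb ▸ Submodule.mem_span_singleton_self _), TensorProduct.tmul_smul,
        ← algebraMap_smul B x]
      rfl
    · change B ⊗[R] ρ.V at v
      show (ρ.ρ σ).baseChange B v - φ z • v ∈ _
      induction v using TensorProduct.induction_on with
      | zero =>
        show (ρ.ρ σ).baseChange B 0 - φ z • (0 : B ⊗[R] ρ.V) ∈ _
        simp only [LinearMap.map_zero, smul_zero, sub_zero]
        exact zero_mem _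
      | tmul c w =>
        have e : φ z • (c ⊗ₜ[R] w) = c ⊗ₜ[R] (z • w) := by
          rw [TensorProduct.tmul_smul, ← algebraMap_smul B z (c ⊗ₜ[R] w)]
          rfl
        rw [LinearMap.baseChange_tmul, e, ← TensorProduct.tmul_sub]
        exact hmem c _ (hzL w)
      | add u w hu hw =>
        rw [map_add, smul_add, add_sub_add_comm]
        exact add_mem hu hw
    · have h1 := hcong n a ha
      rw [Ideal.mem_span_singleton] at h1 ⊢
      have h2 := map_dvd φ h1
      rwa [map_natCast, map_sub, map_mul, map_natCast] at h2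

/-- Flatness along a surjection. -/
theorem isFlatAt_baseChange [Finite (ResidueField B)] (hsurj : Function.Surjective φ)
    (h : ρ.IsFlatAt p) : (ρ.baseChangeAlong φ hφ).IsFlatAt p := by
  letI : Algebra R B := φ.toAlgebra
  refine ⟨inferInstance, fun J hJ => ?_⟩
  set I : Ideal R := J.comap φ
  haveI : Finite (R ⧸ I) := Finite.of_injective (Ideal.quotientMap J φ le_rfl)
    Ideal.quotientMap_injective
  obtain ⟨H, i1, i2, hfin, hflat, hco, e, hadd, hgal⟩ := h.2 I inferInstance
  obtain ⟨b⟩ := Deformation.nonempty_basis ρ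
  set b' : Module.Basis (Fin 2) B (B ⊗[R] ρ.V) := Algebra.TensorProduct.basis B b with hb'
  set Q := J • (⊤ : Submodule B (B ⊗[R] ρ.V))
  let g : ρ.V →+ (B ⊗[R] ρ.V) ⧸ Q :=
    Q.mkQ.toAddMonoidHom.comp (TensorProduct.mk R B ρ.V 1).toAddMonoidHom
  have hg : Function.Surjective g := fun y => by
    obtain ⟨w, rfl⟩ := Submodule.Quotient.mk_surjective Q y
    obtain ⟨v, rfl⟩ := TensorProduct.mk_surjective R ρ.V B hsurj w
    exact ⟨v, rfl⟩
  have hker : ∀ v, g v = 0 ↔ v ∈ I • (⊤ : Submodule R ρ.V) := fun v => by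
    show Submodule.Quotient.mk ((1 : B) ⊗ₜ[R] v) = (0 : (B ⊗[R] ρ.V) ⧸ Q) ↔ _
    rw [Submodule.Quotient.mk_eq_zero, mem_smul_top_iff_coords b', mem_smul_top_iff_coords b]
    refine forall_congr' fun i => ?_
    rw [hb', Algebra.TensorProduct.basis_repr_tmul]
    simp [I, RingHom.algebraMap_toAlgebra]
  obtain ⟨el, hel⟩ := exists_levelEquiv ρ I g hg hker
  refine ⟨H, i1, i2, hfin, hflat, hco, e.trans el.toEquiv, fun f f' => ?_, fun σ f f' hff' => ?_⟩
  · show el (e (f * f')) = el (e f) + el (e f')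
    rw [hadd, map_add]
  · show el (e f') = (ρ.baseChangeAlong φ hφ).levelAction J σ (el (e f))
    rw [hgal σ f f' hff']
    obtain ⟨v, hv⟩ := Submodule.Quotient.mk_surjective _ (e f)
    rw [← hv]
    show el (Submodule.Quotient.mk (ρ.ρ σ v)) = _
    rw [hel, hel]
    show Submodule.Quotient.mk ((1 : B) ⊗ₜ[R] ρ.ρ σ v) =
      Submodule.Quotient.mk ((ρ.ρ σ).baseChange B ((1 : B) ⊗ₜ[R] v))
    rw [LinearMap.baseChange_tmul]

theorem flatCondition_baseChange [Finite (ResidueField B)] {O : Type} [CommRing O] [Algebra O R]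
    [Algebra O B] (hsurj : Function.Surjective φ) {S : Finset ℕ}
    (h : GaloisRep.flatCondition O p S ρ) :
    GaloisRep.flatCondition O p S (ρ.baseChangeAlong φ hφ) :=
  ⟨detIsCyclotomic_baseChange φ hφ h.1, isFlatAt_baseChange φ hφ hsurj h.2.1,
    fun q hq hqS => isUnramifiedAt_baseChange φ hφ (h.2.2 q hq hqS)⟩

theorem strictOrdinaryCondition_baseChange {O : Type} [CommRing O] [Algebra O R] [Algebra O B]
    {S : Finset ℕ} (h : GaloisRep.strictOrdinaryCondition O p S ρ) :
    GaloisRep.strictOrdinaryCondition O p S (ρ.baseChangeAlong φ hφ) :=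
  ⟨detIsCyclotomic_baseChange φ hφ h.1, isStrictOrdinaryAt_baseChange φ hφ h.2.1,
    fun q hq hqS => isUnramifiedAt_baseChange φ hφ (h.2.2 q hq hqS)⟩

end General

section Dual

variable {k : Type} [Field k]

theorem maximalIdeal_sq_eq_bot : maximalIdeal k[ε] ^ 2 = ⊥ := by
  rw [DualNumber.maximalIdeal_eq_span_singleton_eps, Ideal.span_singleton_pow, pow_two,
    DualNumber.eps_mul_eps, Ideal.span_singleton_eq_bot]

instance instFiniteDual [Finite k] : Finite k[ε] := inferInstanceAs (Finite (k × k))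

theorem isAdicComplete_dual : IsAdicComplete (maximalIdeal k[ε]) k[ε] := by
  have h : ∀ n, 2 ≤ n → ((maximalIdeal k[ε]) ^ n • ⊤ : Submodule k[ε] k[ε]) = ⊥ := fun n hn => by
    have h1 : maximalIdeal k[ε] ^ n = ⊥ :=
      le_bot_iff.1 ((Ideal.pow_le_pow_right hn).trans maximalIdeal_sq_eq_bot.le)
    rw [h1, Submodule.bot_smul]
  refine { haus' := fun x hx => ?_, prec' := fun f hf => ⟨f 2, fun n => ?_⟩ }
  · have := hx 2
    rwa [h 2 le_rfl, SModEq.bot] at this
  · rcases le_or_gt n 2 with hn | hn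
    · exact hf hn
    · have h1 := hf hn.le
      rw [h 2 le_rfl, SModEq.bot] at h1
      rw [h1]
      exact SModEq.rfl

end Dual

end FLTAgent.TWPrimes.Glue
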