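import Fermat.Agent.TWPrimes.Glue.Interface
import Fermat.Prelude.Def_GaloisRep_StrictOrdinary
import Fermat.Prelude.Def_GaloisRep_Flat

/-!
# The bound for the tangent space of the deformation rings with auxiliary primes
-/

set_option autoImplicit false

noncomputable section

open IsLocalRing

namespace FLTAgent.TWPrimes

local notation "GG" => (AlgebraicClosure ℚ ≃ₐ[ℚ] AlgebraicClosure ℚ)

/-- The tangent spaces of both kinds of deformation rings have at most as many dimensions as there
are auxiliary primes. -/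
def TargetTanBound : Prop :=
  ∀ (O : Type) [CommRing O] [IsDomain O] [IsDiscreteValuationRing O]
    [IsAdicComplete (maximalIdeal O) O] [Finite (ResidueField O)] (p : ℕ) [Fact p.Prime]
    [Algebra (ZMod p) (ResidueField O)], p ≠ 2 →
    ∀ (ρbar : ResidualGaloisRep (ResidueField O)) (D : Datum p (ResidueField O))
      (b : Module.Basis (Fin 2) (ResidueField O) ρbar.V),
      (∀ σ, (D.rb σ : Matrix (Fin 2) (Fin 2) (ResidueField O)) =
        LinearMap.toMatrix b b (ρbar.ρ σ)) →
      ∀ Smin : Finset ℕ, (∀ q : Nat.Primes, q ∈ D.bad ↔ (q : ℕ) ∈ Smin) →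
        (∀ q ∈ Smin, q.Prime) → (∀ q ∈ Smin, q ≠ p → ¬ ρbar.IsUnramifiedAt q) →
        ∃ r : ℕ, ∀ (n : ℕ) (avoid : Finset Nat.Primes), ∃ Q : Finset Nat.Primes, Q.card = r ∧
          (∀ q ∈ Q, q ∉ avoid ∧ IsAux D n q) ∧
          (∀ (DQ : GaloisRep.DeformationRingData O ρbar (fun _A _ _ _ ρ =>
              GaloisRep.strictOrdinaryCondition O p (Smin ∪ Q.image fun q : Nat.Primes => (q : ℕ)) ρ ∧
                ∀ q ∈ Smin, q.Prime → q ≠ p → ρ.IsUnipotentOnInertiaAt q))
            (red : DQ.R →ₐ[O] ResidueField O),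
            FiniteDimensional (ResidueField O) ↥(tanSp red) ∧
              Module.finrank (ResidueField O) ↥(tanSp red) ≤ r) ∧
          ∀ (DQ : GaloisRep.DeformationRingData O ρbar (fun _A _ _ _ ρ =>
              GaloisRep.flatCondition O p (Smin ∪ Q.image fun q : Nat.Primes => (q : ℕ)) ρ ∧
                ∀ q ∈ Smin, q.Prime → q ≠ p → ρ.IsUnipotentOnInertiaAt q))
            (red : DQ.R →ₐ[O] ResidueField O),
            FiniteDimensional (ResidueField O) ↥(tanSp red) ∧
              Module.finrank (ResidueField O) ↥(tanSp red) ≤ r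

end FLTAgent.TWPrimes
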